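import Mathlib
import Fermat.Agent.S55.H88.SemiLocalDefs

/-!
# S55 / C5 leaf A5 = DEG (helper41): the local degrees above `q` add up to the global degree

In helper88's embedding model: the places of a number field `K` above `q` are the orbits of
`G_q = Gal(PadicAlgCl q / ℚ_q)` on the embeddings `K →+* PadicAlgCl q`, and the completion at
`τ` is `locField q τ = ℚ_q(τ K)`.

* `finiteDimensional_locField` (= A1): `locField q τ` is finite over `ℚ_q`;
* `exists_algEquiv_extend`: every `ℚ_q`-embedding of a subfield of `PadicAlgCl q` extends to an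
  automorphism;
* `natCard_orbit`: the orbit of `τ` has `[locField q τ : ℚ_q]` elements;
* `sumLocalDegree` (= A5): `∑ᶠ v, [K_v : ℚ_q] = [K : ℚ]`.
-/

set_option autoImplicit false

open scoped IntermediateField
open Module

noncomputable section

namespace Fermat.Agent.S55.H41

open Fermat.Agent.S55.H88

variable (q : ℕ) [Fact q.Prime]

/-- Every `ℚ_q`-embedding of an intermediate field of `PadicAlgCl q / ℚ_q` into `PadicAlgCl q`
extends to an automorphism of `PadicAlgCl q`. -/
theorem exists_algEquiv_extend (L : IntermediateField ℚ_[q] (PadicAlgCl q))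
    (φ : L →ₐ[ℚ_[q]] PadicAlgCl q) :
    ∃ g : PadicAlgCl q ≃ₐ[ℚ_[q]] PadicAlgCl q, ∀ x : L, g (x : PadicAlgCl q) = φ x := by
  obtain ⟨ψ, hψ⟩ := IntermediateField.exists_algHom_of_splits
    (fun s : PadicAlgCl q => ⟨Algebra.IsIntegral.isIntegral s, IsAlgClosed.splits _⟩) φ
  refine ⟨AlgEquiv.ofBijective ψ (Algebra.IsAlgebraic.algHom_bijective ψ), fun x => ?_⟩
  exact DFunLike.congr_fun hψ x

section NumberField

variable (K : Type*) [Field K] [NumberField K]

/-- (A1) The completions of a number field are finite over `ℚ_q`. -/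
theorem finiteDimensional_locField (τ : K →+* PadicAlgCl q) :
    FiniteDimensional ℚ_[q] (locField q τ) := by
  classical
  let b := Module.finBasis ℚ K
  let S : Set (PadicAlgCl q) := Set.range fun i => τ (b i)
  have hfin : FiniteDimensional ℚ_[q] (IntermediateField.adjoin ℚ_[q] S) :=
    IntermediateField.finiteDimensional_adjoin fun x _ => Algebra.IsIntegral.isIntegral x
  have hle : locField q τ ≤ IntermediateField.adjoin ℚ_[q] S := by
    refine IntermediateField.adjoin_le_iff.mpr ?_
    rintro _ ⟨x, rfl⟩
    rw [← b.sum_repr x, map_sum]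
    refine sum_mem fun i _ => ?_
    rw [map_rat_smul]
    exact SubfieldClass.qsmul_mem _ _ (IntermediateField.subset_adjoin _ _ ⟨i, rfl⟩)
  exact FiniteDimensional.of_injective (IntermediateField.inclusion hle).toLinearMap
    (IntermediateField.inclusion_injective hle)

end NumberField

section Orbit

variable {K : Type*} [Field K]

/-- The embedding of `K` attached to a `ℚ_q`-embedding of the completion at `τ₀`. -/
def orbitOf (τ₀ : K →+* PadicAlgCl q) (φ : locField q τ₀ →ₐ[ℚ_[q]] PadicAlgCl q) :
    {τ : K →+* PadicAlgCl q // (placeSetoid q K).r τ₀ τ} :=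
  ⟨(φ : locField q τ₀ →+* PadicAlgCl q).comp (locEmb q τ₀), by
    obtain ⟨g, hg⟩ := exists_algEquiv_extend q (locField q τ₀) φ
    refine ⟨g, RingHom.ext fun x => ?_⟩
    exact (hg (locEmb q τ₀ x)).symm⟩

theorem orbitOf_bijective (τ₀ : K →+* PadicAlgCl q) : Function.Bijective (orbitOf q τ₀) := by
  constructor
  · intro φ φ' h
    refine IntermediateField.adjoin_algHom_ext ℚ_[q] ?_
    rintro _ ⟨x, rfl⟩
    exact RingHom.congr_fun (congrArg Subtype.val h) x
  · rintro ⟨τ, g, rfl⟩
    refine ⟨(g : PadicAlgCl q →ₐ[ℚ_[q]] PadicAlgCl q).comp (locField q τ₀).val, ?_⟩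
    exact Subtype.ext (RingHom.ext fun x => rfl)

end Orbit

section Count

variable (K : Type*) [Field K] [NumberField K]

/-- The orbit of `τ₀` under the local Galois group has `[locField q τ₀ : ℚ_q]` elements. -/
theorem natCard_orbit (τ₀ : K →+* PadicAlgCl q) :
    Nat.card {τ : K →+* PadicAlgCl q // (placeSetoid q K).r τ₀ τ} =
      finrank ℚ_[q] (locField q τ₀) := by
  have := finiteDimensional_locField q K τ₀
  rw [← Nat.card_congr (Equiv.ofBijective _ (orbitOf_bijective q τ₀)), Nat.card_eq_fintype_card,
    AlgHom.card]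

/-- The fibre of `placeOf` over a place is the orbit of its chosen embedding. -/
def fibreEquiv (v : PlaceAbove q K) :
    {τ : K →+* PadicAlgCl q // placeOf q τ = v} ≃
      {τ : K →+* PadicAlgCl q // (placeSetoid q K).r v.emb τ} :=
  Equiv.subtypeEquivRight fun τ => by
    constructor
    · intro h
      have h1 : Quotient.mk (placeSetoid q K) v.emb = Quotient.mk (placeSetoid q K) τ := by
        rw [show Quotient.mk (placeSetoid q K) τ = v from h]
        exact Quotient.out_eq v
      exact Quotient.exact h1
    · intro h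
      have h1 : Quotient.mk (placeSetoid q K) v.emb = Quotient.mk (placeSetoid q K) τ :=
        Quotient.sound h
      exact h1.symm.trans (Quotient.out_eq v)

instance finite_placeAbove : Finite (PlaceAbove q K) :=
  Quotient.finite _

/-- **(A5 = DEG)** The local degrees above `q` add up to the global degree. -/
theorem sumLocalDegree :
    ∑ᶠ v : PlaceAbove q K, finrank ℚ_[q] (locField q v.emb) = finrank ℚ K := by
  classical
  have : Fintype (PlaceAbove q K) := Fintype.ofFinite _
  rw [finsum_eq_sum_of_fintype]
  have h1 : ∀ v : PlaceAbove q K, finrank ℚ_[q] (locField q v.emb) =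
      Nat.card {τ : K →+* PadicAlgCl q // placeOf q τ = v} := fun v => by
    rw [Nat.card_congr (fibreEquiv q K v), natCard_orbit]
  rw [Finset.sum_congr rfl fun v _ => h1 v, ← Nat.card_sigma,
    Nat.card_congr (Equiv.sigmaFiberEquiv (placeOf q (K := K))), Nat.card_eq_fintype_card,
    NumberField.Embeddings.card]

end Count

end Fermat.Agent.S55.H41

end
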