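/-
S55 / Program C, package C8 (designer helper29), export (B4), leaf (J-FIN) (helper41):
a class of `H²(Gal(K/k), J_K)` has only finitely many nonzero local invariants `H29.jinv`.

Same route as (LINV-FIN) (`H28.linv_finite`): a 2-cocycle has finitely many values, each an idele,
hence a unit at all primes outside a finite set `T`; so the class comes from the
sub-representation `idelesOutsideRep k K T` of the ideles which are units outside `T`; at a place
`v` over a prime `q ∉ T` unramified in `K / k` the localisation of such a class is a unit class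
of the unramified extension `K_w / k_v`, of invariant `0` (`H28.inv_eq_zero_of_unit_rep`).
-/
import Fermat.Agent.S55.H29.C8Cls
import Fermat.Agent.S55.H28.LinvFin

set_option autoImplicit false

noncomputable section

namespace Fermat.Agent.S55.H41

open IntermediateField CategoryTheory groupCohomology
open Fermat.Agent.S55.H88 Fermat.Agent.S55.H29 Fermat.Agent.S55.H66

attribute [local instance] H88.factOfPrimes

section Outside

variable (k K : Type) [Field k] [Field K] [Algebra k K]

/-- The ideles of `K` which are units at all primes outside `T`. -/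
def idelesOutside (T : Set Nat.Primes) : Subgroup (ideleGroup K) where
  carrier := {x | ∀ q : Nat.Primes, q ∉ T →
    (x : ∀ q' : Nat.Primes, (semiLocal (q' : ℕ) K)ˣ) q ∈ semiLocalUnits (q : ℕ) K}
  one_mem' := fun _ _ => Subgroup.one_mem _
  mul_mem' := fun ha hb q hq => Subgroup.mul_mem _ (ha q hq) (hb q hq)
  inv_mem' := fun ha q hq => Subgroup.inv_mem _ (ha q hq)

/-- The corresponding submodule of the Galois module `J_K`. -/
def idelesOutsideSub (T : Set Nat.Primes) : Submodule ℤ (ideleRep k K) :=
  (AddSubgroup.toIntSubmodule (Subgroup.toAddSubgroup (idelesOutside K T)) :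
    Submodule ℤ (Additive (ideleGroup K)))

theorem mem_idelesOutsideSub {T : Set Nat.Primes} {x : ideleRep k K} :
    x ∈ idelesOutsideSub k K T ↔ ∀ q : Nat.Primes, q ∉ T →
      ((Additive.toMul (Rep.toAdditive x) : ideleGroup K) :
        ∀ q : Nat.Primes, (semiLocal (q : ℕ) K)ˣ) q ∈ semiLocalUnits (q : ℕ) K := Iff.rfl

theorem idelesOutsideSub_le_comap (T : Set Nat.Primes) (g : K ≃ₐ[k] K) :
    idelesOutsideSub k K T ≤ (idelesOutsideSub k K T).comap ((ideleRep k K).ρ g) := by
  intro x hx q hq
  exact smul_mem_semiLocalUnits k K g (hx q hq)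

/-- The representation of `Gal(K/k)` on the ideles which are units outside `T`. -/
def idelesOutsideRep (T : Set Nat.Primes) : Rep.{0, 0, 0} ℤ (K ≃ₐ[k] K) :=
  Rep.subrepresentation (ideleRep k K) (idelesOutsideSub k K T) (idelesOutsideSub_le_comap k K T)

/-- Its inclusion into `J_K`. -/
def idelesOutsideIncl (T : Set Nat.Primes) : idelesOutsideRep k K T ⟶ ideleRep k K :=
  Rep.subtype (ideleRep k K) (idelesOutsideSub k K T) (idelesOutsideSub_le_comap k K T)

/-- Every class of `H²(Gal(K/k), J_K)` comes from the ideles which are units outside a finite set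
of primes. -/
theorem exists_idelesOutside_class [Finite (K ≃ₐ[k] K)]
    (y : groupCohomology (ideleRep k K) 2) :
    ∃ T : Set Nat.Primes, T.Finite ∧ ∃ β : groupCohomology (idelesOutsideRep k K T) 2,
      H29.mapH2 (idelesOutsideIncl k K T) β = y := by
  induction y using H2_induction_on with
  | h c =>
    let T : Set Nat.Primes := ⋃ x : (K ≃ₐ[k] K) × (K ≃ₐ[k] K),
      {q : Nat.Primes | ((Additive.toMul (Rep.toAdditive (c x)) : ideleGroup K) :
        ∀ q : Nat.Primes, (semiLocal (q : ℕ) K)ˣ) q ∉ semiLocalUnits (q : ℕ) K}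
    have hT : T.Finite := Set.finite_iUnion fun x =>
      (Additive.toMul (Rep.toAdditive (c x)) : ideleGroup K).2
    have hmem : ∀ x, c x ∈ idelesOutsideSub k K T := by
      intro x
      rw [mem_idelesOutsideSub]
      intro q hq
      by_contra hne
      exact hq (Set.mem_iUnion.2 ⟨x, hne⟩)
    let c' : (K ≃ₐ[k] K) × (K ≃ₐ[k] K) → idelesOutsideRep k K T := fun x => ⟨c x, hmem x⟩
    have hc' : c' ∈ cocycles₂ (idelesOutsideRep k K T) := by
      rw [mem_cocycles₂_iff]
      intro g h j
      apply Subtype.ext
      exact (mem_cocycles₂_iff (A := ideleRep k K) c).1 c.2 g h j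
    refine ⟨T, hT, (H2π (idelesOutsideRep k K T)).hom ⟨c', hc'⟩, ?_⟩
    have h1 := H2π_comp_map_apply (MonoidHom.id (K ≃ₐ[k] K)) (idelesOutsideIncl k K T) ⟨c', hc'⟩
    refine h1.trans ?_
    congr 1

end Outside

section Vanish

variable (k K : Type) [Field k] [Field K] [NumberField k] [NumberField K] [Algebra k K]
  [Normal k K]

/-- A class coming from ideles which are units outside `T` has trivial invariant at every
embedding over a prime `q ∉ T` unramified in `K / k`. -/
theorem jinvAt_eq_zero_of_outside (T : Set Nat.Primes) (q : Nat.Primes) (hq : q ∉ T)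
    (hunr : IsUnramifiedAt (q : ℕ) k K) (τ' : K →+* PadicAlgCl (q : ℕ))
    (β : groupCohomology (idelesOutsideRep k K T) 2) :
    jinvAt k q τ' (H29.mapH2 (idelesOutsideIncl k K T) β) = 0 := by
  haveI := H28.finiteDimensional_locExt (q : ℕ) k τ'
  haveI : IsGalois (locBase (q : ℕ) k τ') (locExt (q : ℕ) k τ') := ⟨⟩
  have key : groupCohomology.map (MonoidHom.id (K ≃ₐ[k] K)) (idelesOutsideIncl k K T) 2 ≫
      groupCohomology.map (locGalToGlobal (q : ℕ) k τ') (ideleToLoc k q τ') 2 =
      groupCohomology.map (locGalToGlobal (q : ℕ) k τ')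
        ((Rep.resFunctor (locGalToGlobal (q : ℕ) k τ')).map (idelesOutsideIncl k K T) ≫
          ideleToLoc k q τ') 2 := by
    exact (groupCohomology.map_comp (A := idelesOutsideRep k K T) (MonoidHom.id (K ≃ₐ[k] K))
      (locGalToGlobal (q : ℕ) k τ') (idelesOutsideIncl k K T) (ideleToLoc k q τ') 2).symm.trans
      (groupCohomology.map_congr rfl rfl 2)
  have h2 : jinvAt k q τ' (H29.mapH2 (idelesOutsideIncl k K T) β) =
      H66.inv (q : ℕ) (locExt (q : ℕ) k τ')
        ((groupCohomology.map (locGalToGlobal (q : ℕ) k τ')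
          ((Rep.resFunctor (locGalToGlobal (q : ℕ) k τ')).map (idelesOutsideIncl k K T) ≫
            ideleToLoc k q τ') 2).hom β) := by
    rw [← key]
    rfl
  rw [h2]
  refine H28.inv_eq_zero_of_unit_rep (q : ℕ) _ _ (H28.isUnram_locExt (q : ℕ) k τ' hunr)
    (idelesOutsideRep k K T) _ _ ?_ β
  intro a
  exact (show ↥(idelesOutsideSub k K T) from a).2 q hq τ'

end Vanish

/-- **C8 leaf (J-FIN)**, verbatim: a class of `H²(Gal(K/k), J_K)` has only finitely many nonzero
local invariants. -/
theorem jFinStatement : H29.JFinStatement := by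
  intro k K _ _ _ _ _ _ y
  haveI : FiniteDimensional k K := Module.Finite.of_restrictScalars_finite ℚ k K
  obtain ⟨T, hT, β, rfl⟩ := exists_idelesOutside_class k K y
  have hbad : {q : Nat.Primes | ¬ IsUnramifiedAt (q : ℕ) k K}.Finite :=
    H28.almostAllUnramifiedStatement k K
  have hfin : {v : FinPlace k |
      v.1 ∈ T ∪ {q : Nat.Primes | ¬ IsUnramifiedAt (q : ℕ) k K}}.Finite := by
    haveI : ∀ q : Nat.Primes, Finite (PlaceAbove (q : ℕ) k) := fun q => Quotient.finite _
    exact Set.Finite.subset
      ((hT.union hbad).biUnion fun q _ => Set.finite_range (Sigma.mk q : _ → FinPlace k))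
      (fun v hv => Set.mem_biUnion hv ⟨v.2, rfl⟩)
  refine hfin.subset ?_
  intro v hv
  by_contra hnot
  apply hv
  have hvT : v.1 ∉ T := fun h => hnot (Or.inl h)
  have hunr : IsUnramifiedAt (v.1 : ℕ) k K := by
    by_contra h
    exact hnot (Or.inr h)
  exact jinvAt_eq_zero_of_outside k K T v.1 hvT hunr (FinPlace.ext K v) β

end Fermat.Agent.S55.H41

end
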