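import Fermat.Agent.S55.H49.C0Spec

/-!
# S55 / C0 leaves L3, L4 (helper41): the degree-2 bridge, generic core

For a level datum `D` on a group `G` with normal refinements (`D.HasNormalLevels`) and a
`D`-smooth module `M`: the quotient of the Prelude-style level-constant `2`-cocycles by the
Prelude-style level-constant coboundaries is `H²` of the level-constant complex `lcComplex D M`,
the class of `c : G × G → M` corresponding to the class of the cocycle `g ↦ c (g 0, g 1)`.
-/

set_option autoImplicit false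

open CategoryTheory groupCohomology

noncomputable section

namespace Fermat.Agent.S55.H41

open Fermat.Agent.S55.H49

variable {k : Type} [CommRing k] {G : Type} [Group G]

/-- Prelude-style level constancy in one variable, for a level datum. -/
def PLC₁ (D : LevelDatum G) {X : Type*} (f : G → X) : Prop :=
  ∃ F : IntermediateField ℚ (AlgebraicClosure ℚ), D.Lev F ∧
    ∀ g s : G, D.r s ∈ F.fixingSubgroup → f (g * s) = f g

/-- Prelude-style level constancy in two variables, for a level datum. -/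
def PLC₂ (D : LevelDatum G) {X : Type*} (f : G × G → X) : Prop :=
  ∃ F : IntermediateField ℚ (AlgebraicClosure ℚ), D.Lev F ∧
    ∀ g g' s s' : G, D.r s ∈ F.fixingSubgroup → D.r s' ∈ F.fixingSubgroup →
      f (g * s, g' * s') = f (g, g')

/-- For a smooth module over a level datum with normal refinements, invariance modulo the
subgroup of some level is level-constancy in the sense of `IsLC`. -/
theorem isLC_of_invariant {D : LevelDatum G} (hN : D.HasNormalLevels) {M : Rep.{0} k G}
    (hM : D.Smooth M) {n : ℕ} {f : (Fin n → G) → M}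
    {F : IntermediateField ℚ (AlgebraicClosure ℚ)} (hF : D.Lev F)
    (h : ∀ g s : Fin n → G, (∀ i, D.r (s i) ∈ F.fixingSubgroup) → f (g * s) = f g) :
    IsLC D M f := by
  obtain ⟨F₀, hF₀, _, hM₀⟩ := hM
  obtain ⟨F', hF', hle, hN'⟩ := hN (F ⊔ F₀) (D.sup hF hF₀)
  refine ⟨F', hF', hN', fun g s hs => h g s fun i => ?_, fun g s hs => hM₀ s ?_ _⟩
  · exact IntermediateField.fixingSubgroup_antitone (le_sup_left.trans hle) (hs i)
  · exact IntermediateField.fixingSubgroup_antitone (le_sup_right.trans hle) hs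

/-- The `2`-cochain `g ↦ c (g 0, g 1)` of a function of two variables. -/
def toFin2 (M : Rep.{0} k G) : (G × G → M) →ₗ[k] ((Fin 2 → G) → M) :=
  LinearMap.funLeft k M fun g : Fin 2 → G => (g 0, g 1)

/-- The `1`-cochain `g ↦ x (g 0)` of a function of one variable. -/
def toFin1 (M : Rep.{0} k G) : (G → M) →ₗ[k] ((Fin 1 → G) → M) :=
  LinearMap.funLeft k M fun g : Fin 1 → G => g 0

@[simp]
theorem toFin2_apply (M : Rep.{0} k G) (c : G × G → M) (g : Fin 2 → G) :
    toFin2 M c g = c (g 0, g 1) := rfl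

@[simp]
theorem toFin1_apply (M : Rep.{0} k G) (x : G → M) (g : Fin 1 → G) :
    toFin1 M x g = x (g 0) := rfl

omit [Group G] in
theorem vec2_eta (g : Fin 2 → G) : (![g 0, g 1] : Fin 2 → G) = g := by
  funext i
  fin_cases i <;> rfl

omit [Group G] in
theorem vec1_eta (g : Fin 1 → G) : (![g 0] : Fin 1 → G) = g := by
  funext i
  fin_cases i
  rfl

/-- The differential in degree `1` in terms of functions of one and two variables. -/
theorem d_toFin1 (M : Rep.{0} k G) (x : G → M) :
    (inhomogeneousCochains.d M 1).hom (toFin1 M x) = toFin2 M ((d₁₂ M).hom x) := by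
  funext g
  rw [inhomogeneousCochains.d_hom_apply, Fin.sum_univ_two]
  simp only [toFin1_apply, toFin2_apply, d₁₂_hom_apply]
  simp [Fin.contractNth, sub_eq_add_neg, add_assoc]

/-- The differential in degree `2` in terms of functions of two variables. -/
theorem d_toFin2_apply (M : Rep.{0} k G) (c : G × G → M) (g : Fin 3 → G) :
    (inhomogeneousCochains.d M 2).hom (toFin2 M c) g =
      M.ρ (g 0) (c (g 1, g 2)) - c (g 0 * g 1, g 2) + c (g 0, g 1 * g 2) - c (g 0, g 1) := by
  rw [inhomogeneousCochains.d_hom_apply, Fin.sum_univ_three]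
  simp only [toFin2_apply]
  simp [Fin.contractNth, sub_eq_add_neg, add_assoc, pow_succ]

/-! ### Level-constancy: Prelude style versus `IsLC` -/

section LC

variable {D : LevelDatum G} {M : Rep.{0} k G}

theorem isLC_toFin2 (hN : D.HasNormalLevels) (hM : D.Smooth M) {c : G × G → M}
    (hc : PLC₂ D c) : IsLC D M (toFin2 M c) := by
  obtain ⟨F, hF, h⟩ := hc
  exact isLC_of_invariant hN hM hF fun g s hs => h (g 0) (g 1) (s 0) (s 1) (hs 0) (hs 1)

theorem isLC_toFin1 (hN : D.HasNormalLevels) (hM : D.Smooth M) {x : G → M}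
    (hx : PLC₁ D x) : IsLC D M (toFin1 M x) := by
  obtain ⟨F, hF, h⟩ := hx
  exact isLC_of_invariant hN hM hF fun g s hs => h (g 0) (s 0) (hs 0)

theorem plc₂_of_isLC {f : (Fin 2 → G) → M} (hf : IsLC D M f) :
    PLC₂ D fun p : G × G => f ![p.1, p.2] := by
  obtain ⟨F, hF, _, h, _⟩ := hf
  refine ⟨F, hF, fun g g' s s' hs hs' => ?_⟩
  have e : (![g * s, g' * s'] : Fin 2 → G) = ![g, g'] * ![s, s'] := by
    funext i
    fin_cases i <;> rfl
  show f ![g * s, g' * s'] = f ![g, g']
  rw [e]
  refine h _ _ fun i => ?_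
  fin_cases i
  · exact hs
  · exact hs'

theorem plc₁_of_isLC {f : (Fin 1 → G) → M} (hf : IsLC D M f) :
    PLC₁ D fun g : G => f ![g] := by
  obtain ⟨F, hF, _, h, _⟩ := hf
  refine ⟨F, hF, fun g s hs => ?_⟩
  have e : (![g * s] : Fin 1 → G) = ![g] * ![s] := by
    funext i
    fin_cases i
    rfl
  show f ![g * s] = f ![g]
  rw [e]
  refine h _ _ fun i => ?_
  fin_cases i
  exact hs

theorem toFin2_vec (f : (Fin 2 → G) → M) : toFin2 M (fun p : G × G => f ![p.1, p.2]) = f := by
  funext g
  rw [toFin2_apply, vec2_eta]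

theorem toFin1_vec (f : (Fin 1 → G) → M) : toFin1 M (fun g : G => f ![g]) = f := by
  funext g
  rw [toFin1_apply, vec1_eta]

/-- `toFin2 c` is a cocycle of the inhomogeneous complex iff `c` is a `2`-cocycle. -/
theorem d_toFin2_eq_zero_iff (c : G × G → M) :
    (inhomogeneousCochains.d M 2).hom (toFin2 M c) = 0 ↔ c ∈ cocycles₂ M := by
  rw [mem_cocycles₂_def]
  constructor
  · intro h g₁ g₂ g₃
    have := congrFun h ![g₁, g₂, g₃]
    rw [d_toFin2_apply] at this
    exact this
  · intro h
    funext g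
    rw [d_toFin2_apply]
    exact h (g 0) (g 1) (g 2)

end LC

/-! ### Cocycles of the level-constant complex -/

section Cyc

variable (D : LevelDatum G) (M : Rep.{0} k G)

theorem lcValC_d {n : ℕ} (y : (lcComplex D M).X n) :
    lcValC (((lcComplex D M).d n (n + 1)).hom y) =
      (inhomogeneousCochains.d M n).hom (lcValC y) := by
  simp only [lcComplex, CochainComplex.of_d]
  rfl

theorem mem_cyc_lc_iff {n : ℕ} (y : (lcComplex D M).X n) :
    y ∈ cyc (lcComplex D M) n ↔ (inhomogeneousCochains.d M n).hom (lcValC y) = 0 := by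
  rw [mem_cyc, ← lcValC_d]
  constructor
  · intro h
    rw [h]
    rfl
  · intro h
    exact lcValC_injective h

/-- A level-constant cochain, as an element of the level-constant complex. -/
def mkX {n : ℕ} (f : (Fin n → G) → M) (hf : IsLC D M f) : (lcComplex D M).X n :=
  (⟨f, hf⟩ : lcCochains D M n)

@[simp]
theorem lcValC_mkX {n : ℕ} (f : (Fin n → G) → M) (hf : IsLC D M f) :
    lcValC (mkX D M f hf) = f := rfl

theorem isLC_lcValC {n : ℕ} (y : (lcComplex D M).X n) : IsLC D M (lcValC y) :=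
  (show lcCochains D M n from y).2

end Cyc

/-! ### The bridge -/

section Core

variable {D : LevelDatum G} {M : Rep.{0} k G}

theorem toFin2_injective : Function.Injective (toFin2 M) := by
  intro c c' h
  funext p
  have := congrFun h ![p.1, p.2]
  exact this

/-- The map `c ↦ (g ↦ c (g 0, g 1))` from Prelude-style level-constant `2`-cocycles to the
cocycles of the level-constant complex. -/
def phi (hN : D.HasNormalLevels) (hM : D.Smooth M) (Z : Submodule k (G × G → M))
    (hZ : ∀ c, c ∈ Z → c ∈ cocycles₂ M ∧ PLC₂ D c) : ↥Z →ₗ[k] ↥(cyc (lcComplex D M) 2) where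
  toFun c := ⟨mkX D M (toFin2 M c.1) (isLC_toFin2 hN hM (hZ c.1 c.2).2),
    (mem_cyc_lc_iff D M _).2 ((d_toFin2_eq_zero_iff c.1).2 (hZ c.1 c.2).1)⟩
  map_add' _ _ := lcVal_injective rfl
  map_smul' _ _ := lcVal_injective rfl

theorem lcVal_phi (hN : D.HasNormalLevels) (hM : D.Smooth M) (Z : Submodule k (G × G → M))
    (hZ : ∀ c, c ∈ Z → c ∈ cocycles₂ M ∧ PLC₂ D c) (c : Z) :
    lcVal (phi hN hM Z hZ c) = toFin2 M c.1 := rfl

/-- **Degree-2 bridge, generic core.** -/
theorem bridge2_core (hN : D.HasNormalLevels) (hM : D.Smooth M)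
    (Z B : Submodule k (G × G → M))
    (hZ : ∀ c, c ∈ Z ↔ c ∈ cocycles₂ M ∧ PLC₂ D c)
    (hB : ∀ c, c ∈ B ↔ ∃ x : G → M, PLC₁ D x ∧ (d₁₂ M).hom x = c) :
    ∃ e : (↥Z ⧸ B.comap Z.subtype) ≃ₗ[k] Hlc D M 2,
      (∀ c : Z, ∃ z : cyc (lcComplex D M) 2, ∀ g : Fin 2 → G, lcVal z g = c.1 (g 0, g 1)) ∧
      ∀ (c : Z) (z : cyc (lcComplex D M) 2), (∀ g : Fin 2 → G, lcVal z g = c.1 (g 0, g 1)) →
        e (Submodule.mkQ _ c) = (cls (lcComplex D M) 2).hom z := by
  let φ := phi hN hM Z (fun c hc => (hZ c).1 hc)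
  let ψ : ↥Z →ₗ[k] Hlc D M 2 := (cls (lcComplex D M) 2).hom ∘ₗ φ
  have hsurj : Function.Surjective ψ := by
    intro x
    obtain ⟨z, rfl⟩ := cls_surjective (lcComplex D M) 2 x
    have hz1 : IsLC D M (lcVal z) := isLC_lcValC D M z.1
    have hz2 : (inhomogeneousCochains.d M 2).hom (lcVal z) = 0 := (mem_cyc_lc_iff D M z.1).1 z.2
    let c : G × G → M := fun p => lcVal z ![p.1, p.2]
    have hc : c ∈ Z := (hZ c).2
      ⟨(d_toFin2_eq_zero_iff c).1 (by rw [toFin2_vec]; exact hz2), plc₂_of_isLC hz1⟩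
    refine ⟨⟨c, hc⟩, ?_⟩
    show (cls (lcComplex D M) 2).hom (φ ⟨c, hc⟩) = (cls (lcComplex D M) 2).hom z
    congr 1
    apply lcVal_injective
    exact toFin2_vec (lcVal z)
  have hker : LinearMap.ker ψ = B.comap Z.subtype := by
    ext c
    rw [LinearMap.mem_ker, Submodule.mem_comap, Submodule.subtype_apply, hB]
    show (cls (lcComplex D M) (1 + 1)).hom (φ c) = 0 ↔ _
    rw [cls_eq_zero_iff]
    constructor
    · rintro ⟨y, hy⟩
      have h1 : (inhomogeneousCochains.d M 1).hom (lcValC y) = toFin2 M c.1 := by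
        rw [← lcValC_d, hy]
        rfl
      refine ⟨fun g => lcValC y ![g], plc₁_of_isLC (isLC_lcValC D M y), ?_⟩
      have h2 := d_toFin1 M (fun g => lcValC y ![g])
      rw [toFin1_vec, h1] at h2
      exact (toFin2_injective h2).symm
    · rintro ⟨x, hx, hxc⟩
      refine ⟨mkX D M (toFin1 M x) (isLC_toFin1 hN hM hx), ?_⟩
      apply lcValC_injective
      rw [lcValC_d, lcValC_mkX, d_toFin1, hxc]
      rfl
  refine ⟨(Submodule.quotEquivOfEq _ _ hker.symm).trans (ψ.quotKerEquivOfSurjective hsurj),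
    fun c => ⟨φ c, fun g => rfl⟩, fun c z hz => ?_⟩
  have hzc : z = φ c := lcVal_injective (funext hz)
  rw [hzc]
  rfl

end Core

end Fermat.Agent.S55.H41

end
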