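import Fermat.Agent.S55.H41.Bridge2Core
import Fermat.Agent.S55.H43.Levels

/-!
# S55 / C0 leaves L3 and L4 (helper41): the degree-2 bridges

* `bridgeGlobal2All : H49.BridgeGlobal2All` — the Prelude's `continuousH2S S M` is `H²` of the
  level-constant complex of the global datum, for every smooth `M`;
* `bridgeLocal2All : H49.BridgeLocal2All` — the Prelude's `continuousH2 f N` is `H²` of the
  level-constant complex of the local datum of `f`, for every smooth `N`.

Both are instances of `bridge2_core`; the normal refinements of levels are helper43's
`exists_normal_level` / `exists_normal_finiteDimensional`.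
-/

set_option autoImplicit false

open CategoryTheory groupCohomology

namespace Fermat.Agent.S55.H41

open Fermat.Agent.S55.H49

/-- Every level unramified outside `S` lies in a normal level unramified outside `S`. -/
theorem hasNormalLevels_globalDatum (S : Finset Nat.Primes) :
    (globalDatum S).HasNormalLevels := fun _ hF => by
  obtain ⟨F', hF', hle, hN, _⟩ := Fermat.Agent.S55.H43.exists_normal_level hF
  exact ⟨F', hF', hle, hN⟩

/-- Every finite level lies in a finite normal level. -/
theorem hasNormalLevels_localDatum {H : Type} [Group H] (f : H →* GQ) :
    (localDatum f).HasNormalLevels := fun F hF => by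
  have : FiniteDimensional ℚ F := hF
  obtain ⟨F', hF', hle, hN, _⟩ := Fermat.Agent.S55.H43.exists_normal_finiteDimensional F
  exact ⟨F', hF', hle, hN⟩

/-- **C0 leaf L3**: the global bridge in degree 2, for all smooth modules. -/
theorem bridgeGlobal2All : BridgeGlobal2All := by
  intro k _ S M hM
  exact bridge2_core (hasNormalLevels_globalDatum S) hM (levelCocyclesS₂ S M)
    (levelCoboundariesS₂ S M) (fun c => mem_levelCocyclesS₂_iff S M c)
    (fun c => mem_levelCoboundariesS₂_iff S M c)

/-- **C0 leaf L4**: the local bridge in degree 2, for all smooth modules. -/
theorem bridgeLocal2All : BridgeLocal2All := by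
  intro k _ H _ f N hN
  exact bridge2_core (hasNormalLevels_localDatum f) hN (levelCocycles₂ f N)
    (levelCoboundaries₂ f N) (fun c => mem_levelCocycles₂_iff f N c)
    (fun c => mem_levelCoboundaries₂_iff f N c)

end Fermat.Agent.S55.H41
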