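import Mathlib
import Fermat.Agent.S55.H49.LcExact

/-!
# S55 / C9b leaf (LC-ELT) (helper41): the long exact cohomology sequence in element form

* Generic part: for a short exact sequence `X` of cochain complexes of `k`-modules (`k` any
  commutative ring) the connecting map `lesDelta hX n : Hⁿ(X₃) →ₗ[k] Hⁿ⁺¹(X₁)` and the six
  element-form clauses of the long exact sequence (`les_*`), plus the cocycle-level formula
  `lesDelta_cls` (`δ [z] = [x]` as soon as `g y = z` and `f x = d y`) and the existence of such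
  representatives (`exists_lesDelta_rep`).
* Level-constant cohomology: `hlcPush D ψ n : Hlc D A n →ₗ[k] Hlc D B n`, `hlcDelta hX n`,
  and the same clauses (`hlc_*`) for `X : ShortComplex (Rep k G)` with
  `(X.map (lcFunctor k D)).ShortExact` (e.g. from `H49.lc_shortExact`), in the shape of the
  hypotheses of `H70.GSChaseStatement` / `H70.KummerChaseStatement`.
-/

set_option autoImplicit false

open CategoryTheory

noncomputable section

namespace Fermat.Agent.S55.H41

open Fermat.Agent.S55.H49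

variable {k : Type} [CommRing k]

/-! ### Generic part -/

section Generic

variable {X : ShortComplex (CochainComplex (ModuleCat.{0} k) ℕ)} (hX : X.ShortExact) (n : ℕ)

/-- The connecting homomorphism `Hⁿ(X₃) → Hⁿ⁺¹(X₁)` as a linear map. -/
def lesDelta : X.X₃.homology n →ₗ[k] X.X₁.homology (n + 1) :=
  (hX.δ n (n + 1) rfl).hom

include hX in
/-- Exactness at `Hⁿ(X₂)`. -/
theorem les_exact₂ (y : X.X₂.homology n)
    (hy : (HomologicalComplex.homologyMap X.g n).hom y = 0) :
    ∃ x : X.X₁.homology n, (HomologicalComplex.homologyMap X.f n).hom x = y := by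
  have h := hX.homology_exact₂ n
  rw [ShortComplex.moduleCat_exact_iff] at h
  exact h y hy

/-- `g_* ∘ f_* = 0`. -/
theorem les_zero₂ (x : X.X₁.homology n) :
    (HomologicalComplex.homologyMap X.g n).hom
      ((HomologicalComplex.homologyMap X.f n).hom x) = 0 := by
  have h : HomologicalComplex.homologyMap X.f n ≫ HomologicalComplex.homologyMap X.g n = 0 := by
    rw [← HomologicalComplex.homologyMap_comp, X.zero, HomologicalComplex.homologyMap_zero]
  exact LinearMap.congr_fun (ModuleCat.hom_ext_iff.mp h) x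

/-- Exactness at `Hⁿ(X₃)`. -/
theorem les_exact₃ (z : X.X₃.homology n) (hz : lesDelta hX n z = 0) :
    ∃ y : X.X₂.homology n, (HomologicalComplex.homologyMap X.g n).hom y = z := by
  have h := hX.homology_exact₃ n (n + 1) rfl
  rw [ShortComplex.moduleCat_exact_iff] at h
  exact h z hz

/-- `δ ∘ g_* = 0`. -/
theorem les_zero₃ (y : X.X₂.homology n) :
    lesDelta hX n ((HomologicalComplex.homologyMap X.g n).hom y) = 0 :=
  LinearMap.congr_fun (ModuleCat.hom_ext_iff.mp (hX.comp_δ n (n + 1) rfl)) y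

/-- Exactness at `Hⁿ⁺¹(X₁)`. -/
theorem les_exact₁ (x : X.X₁.homology (n + 1))
    (hx : (HomologicalComplex.homologyMap X.f (n + 1)).hom x = 0) :
    ∃ z : X.X₃.homology n, lesDelta hX n z = x := by
  have h := hX.homology_exact₁ n (n + 1) rfl
  rw [ShortComplex.moduleCat_exact_iff] at h
  exact h x hx

/-- `f_* ∘ δ = 0`. -/
theorem les_zero₁ (z : X.X₃.homology n) :
    (HomologicalComplex.homologyMap X.f (n + 1)).hom (lesDelta hX n z) = 0 :=
  LinearMap.congr_fun (ModuleCat.hom_ext_iff.mp (hX.δ_comp n (n + 1) rfl)) z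

end Generic

/-! ### The connecting map on cocycles -/

section Cocycle

/-- The morphism `k ⟶ M` picking the element `m`. -/
def pickElt {M : ModuleCat.{0} k} (m : M) : ModuleCat.of k k ⟶ M :=
  ModuleCat.ofHom (LinearMap.toSpanSingleton k M m)

theorem pickElt_one {M : ModuleCat.{0} k} (m : M) : (pickElt m).hom (1 : k) = m := by
  show (1 : k) • m = m
  rw [one_smul]

theorem pickElt_comp {M N : ModuleCat.{0} k} (m : M) (φ : M ⟶ N) :
    pickElt m ≫ φ = pickElt (φ.hom m) := by
  refine ModuleCat.hom_ext (LinearMap.ext_ring ?_)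
  show φ.hom ((1 : k) • m) = (1 : k) • φ.hom m
  rw [one_smul, one_smul]

theorem pickElt_zero (M : ModuleCat.{0} k) : pickElt (0 : M) = 0 := by
  refine ModuleCat.hom_ext (LinearMap.ext_ring ?_)
  show (1 : k) • (0 : M) = 0
  rw [smul_zero]

theorem liftCycles_pickElt (K : CochainComplex (ModuleCat.{0} k) ℕ) (n : ℕ) (z : cyc K n)
    (h : pickElt z.1 ≫ K.d n (n + 1) = 0) :
    (K.liftCycles (pickElt z.1) (n + 1) (by simp) h).hom (1 : k) = (cycToCycles K n).hom z := by
  apply iCycles_injective K n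
  rw [iCycles_cycToCycles]
  have e := LinearMap.congr_fun (ModuleCat.hom_ext_iff.mp
    (K.liftCycles_i (pickElt z.1) (n + 1) (by simp) h)) (1 : k)
  exact e.trans (pickElt_one z.1)

variable {X : ShortComplex (CochainComplex (ModuleCat.{0} k) ℕ)} (hX : X.ShortExact) (n : ℕ)

/-- THE CONNECTING MAP ON COCYCLES: if `z` is an `n`-cocycle of `X₃`, `y ∈ X₂ⁿ` lifts it and the
`(n+1)`-cocycle `x` of `X₁` maps to `d y`, then `δ [z] = [x]`. -/
theorem lesDelta_cls (z : cyc X.X₃ n) (y : X.X₂.X n) (hy : (X.g.f n).hom y = z.1)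
    (x : cyc X.X₁ (n + 1)) (hx : (X.f.f (n + 1)).hom x.1 = (X.X₂.d n (n + 1)).hom y) :
    lesDelta hX n ((cls X.X₃ n).hom z) = (cls X.X₁ (n + 1)).hom x := by
  have hx₃ : pickElt z.1 ≫ X.X₃.d n (n + 1) = 0 := by
    rw [pickElt_comp, mem_cyc.mp z.2, pickElt_zero]
  have hx₂ : pickElt y ≫ X.g.f n = pickElt z.1 := by rw [pickElt_comp, hy]
  have hx₁ : pickElt x.1 ≫ X.f.f (n + 1) = pickElt y ≫ X.X₂.d n (n + 1) := by
    rw [pickElt_comp, pickElt_comp, hx]
  have hx₁' : pickElt x.1 ≫ X.X₁.d (n + 1) (n + 1 + 1) = 0 := by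
    rw [pickElt_comp, mem_cyc.mp x.2, pickElt_zero]
  have key := hX.δ_eq n (n + 1) rfl (pickElt z.1) hx₃ (pickElt y) hx₂ (pickElt x.1) hx₁
    (n + 1 + 1) (by simp)
  have e := LinearMap.congr_fun (ModuleCat.hom_ext_iff.mp key) (1 : k)
  have e' : (hX.δ n (n + 1) rfl).hom ((X.X₃.homologyπ n).hom
      ((X.X₃.liftCycles (pickElt z.1) (n + 1) (by simp) hx₃).hom (1 : k))) =
      (X.X₁.homologyπ (n + 1)).hom
        ((X.X₁.liftCycles (pickElt x.1) (n + 1 + 1) (by simp) hx₁').hom (1 : k)) := e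
  rw [liftCycles_pickElt, liftCycles_pickElt] at e'
  exact e'

include hX in
/-- Degreewise surjectivity of `g`. -/
theorem les_g_surjective : Function.Surjective (X.g.f n).hom := by
  have h := hX.map_of_exact (HomologicalComplex.eval (ModuleCat.{0} k) (ComplexShape.up ℕ) n)
  exact (ModuleCat.epi_iff_surjective _).mp h.epi_g

include hX in
/-- Degreewise injectivity of `f`. -/
theorem les_f_injective : Function.Injective (X.f.f n).hom := by
  have h := hX.map_of_exact (HomologicalComplex.eval (ModuleCat.{0} k) (ComplexShape.up ℕ) n)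
  exact (ModuleCat.mono_iff_injective _).mp h.mono_f

include hX in
/-- Degreewise exactness in the middle. -/
theorem les_fg_exact (y : X.X₂.X n) (hy : (X.g.f n).hom y = 0) :
    ∃ x : X.X₁.X n, (X.f.f n).hom x = y := by
  have h := (hX.map_of_exact
    (HomologicalComplex.eval (ModuleCat.{0} k) (ComplexShape.up ℕ) n)).exact
  rw [ShortComplex.moduleCat_exact_iff] at h
  exact h y hy

include hX in
/-- Representatives for the connecting map always exist. -/
theorem exists_lesDelta_rep (z : cyc X.X₃ n) :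
    ∃ (y : X.X₂.X n) (x : cyc X.X₁ (n + 1)), (X.g.f n).hom y = z.1 ∧
      (X.f.f (n + 1)).hom x.1 = (X.X₂.d n (n + 1)).hom y := by
  obtain ⟨y, hy⟩ := les_g_surjective hX n z.1
  have h1 : (X.g.f (n + 1)).hom ((X.X₂.d n (n + 1)).hom y) = 0 := by
    have e := LinearMap.congr_fun (ModuleCat.hom_ext_iff.mp (X.g.comm n (n + 1))) y
    have e' : (X.X₃.d n (n + 1)).hom ((X.g.f n).hom y) =
        (X.g.f (n + 1)).hom ((X.X₂.d n (n + 1)).hom y) := e
    rw [← e', hy]
    exact mem_cyc.mp z.2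
  obtain ⟨x, hx⟩ := les_fg_exact hX (n + 1) _ h1
  have hxc : x ∈ cyc X.X₁ (n + 1) := by
    rw [mem_cyc]
    apply les_f_injective hX (n + 1 + 1)
    have e := LinearMap.congr_fun (ModuleCat.hom_ext_iff.mp (X.f.comm (n + 1) (n + 1 + 1))) x
    have e' : (X.X₂.d (n + 1) (n + 1 + 1)).hom ((X.f.f (n + 1)).hom x) =
        (X.f.f (n + 1 + 1)).hom ((X.X₁.d (n + 1) (n + 1 + 1)).hom x) := e
    rw [← e', hx, map_zero]
    exact LinearMap.congr_fun (ModuleCat.hom_ext_iff.mp (X.X₂.d_comp_d n (n + 1) (n + 1 + 1))) y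
  exact ⟨y, ⟨x, hxc⟩, hy, hx⟩

end Cocycle

/-! ### Naturality of the connecting map -/

section Naturality

variable {X Y : ShortComplex (CochainComplex (ModuleCat.{0} k) ℕ)}

/-- Naturality of the connecting map with respect to a morphism of short exact sequences of
complexes. -/
theorem lesDelta_naturality (φ : X ⟶ Y) (hX : X.ShortExact) (hY : Y.ShortExact) (n : ℕ)
    (z : X.X₃.homology n) :
    (HomologicalComplex.homologyMap φ.τ₁ (n + 1)).hom (lesDelta hX n z) =
      lesDelta hY n ((HomologicalComplex.homologyMap φ.τ₃ n).hom z) :=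
  LinearMap.congr_fun (ModuleCat.hom_ext_iff.mp
    (HomologicalComplex.HomologySequence.δ_naturality φ hX hY n (n + 1) rfl)) z

end Naturality

/-! ### Level-constant cohomology -/

section Hlc

variable {G : Type} [Group G]

/-- The map induced on level-constant cohomology by a morphism of coefficients (over any
commutative ring). -/
def hlcPush (D : LevelDatum G) {A B : Rep.{0} k G} (ψ : A ⟶ B) (n : ℕ) :
    Hlc D A n →ₗ[k] Hlc D B n :=
  (HomologicalComplex.homologyMap (lcMapCoeff D ψ) n).hom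

theorem hlcPush_id (D : LevelDatum G) (A : Rep.{0} k G) (n : ℕ) :
    hlcPush D (𝟙 A) n = LinearMap.id := by
  have h : lcMapCoeff D (𝟙 A) = 𝟙 (lcComplex D A) := rfl
  unfold hlcPush
  rw [h, HomologicalComplex.homologyMap_id]
  rfl

theorem hlcPush_comp (D : LevelDatum G) {A B C : Rep.{0} k G} (φ : A ⟶ B) (ψ : B ⟶ C) (n : ℕ) :
    hlcPush D (φ ≫ ψ) n = hlcPush D ψ n ∘ₗ hlcPush D φ n := by
  have h : lcMapCoeff D (φ ≫ ψ) = lcMapCoeff D φ ≫ lcMapCoeff D ψ := rfl
  unfold hlcPush
  rw [h, HomologicalComplex.homologyMap_comp]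
  rfl

theorem hlcPush_comp_apply (D : LevelDatum G) {A B C : Rep.{0} k G} (φ : A ⟶ B) (ψ : B ⟶ C)
    (n : ℕ) (x : Hlc D A n) : hlcPush D (φ ≫ ψ) n x = hlcPush D ψ n (hlcPush D φ n x) := by
  rw [hlcPush_comp]
  rfl

/-- `hlcPush` on the class of a cocycle. -/
theorem hlcPush_cls (D : LevelDatum G) {A B : Rep.{0} k G} (ψ : A ⟶ B) (n : ℕ)
    (z : cyc (lcComplex D A) n) :
    hlcPush D ψ n ((cls (lcComplex D A) n).hom z) =
      (cls (lcComplex D B) n).hom (cycMap (lcMapCoeff D ψ) n z) :=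
  homologyMap_cls _ n z

theorem lcVal_cycMap_lcMapCoeff (D : LevelDatum G) {A B : Rep.{0} k G} (ψ : A ⟶ B) (n : ℕ)
    (z : cyc (lcComplex D A) n) (g : Fin n → G) :
    lcVal (cycMap (lcMapCoeff D ψ) n z) g = ψ.hom (lcVal z g) := rfl

/-- The differential of the level-constant complex on value functions. -/
theorem lcValC_lcD (D : LevelDatum G) (M : Rep.{0} k G) {n : ℕ} (y : (lcComplex D M).X n) :
    lcValC (((lcComplex D M).d n (n + 1)).hom y) =
      (inhomogeneousCochains.d M n).hom (lcValC y) := by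
  simp only [lcComplex, CochainComplex.of_d]
  rfl

variable {D : LevelDatum G} {X : ShortComplex (Rep.{0} k G)}
  (hX : (X.map (lcFunctor k D)).ShortExact) (n : ℕ)

/-- The connecting homomorphism `Hⁿ(X₃) → Hⁿ⁺¹(X₁)` of level-constant cohomology, for a sequence
of coefficients `X` inducing a short exact sequence of level-constant complexes (see
`H49.lc_shortExact`). -/
def hlcDelta : Hlc D X.X₃ n →ₗ[k] Hlc D X.X₁ (n + 1) :=
  lesDelta hX n

include hX in
/-- Exactness at `Hⁿ(X₂)`. -/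
theorem hlc_exact₂ (y : Hlc D X.X₂ n) (hy : hlcPush D X.g n y = 0) :
    ∃ x : Hlc D X.X₁ n, hlcPush D X.f n x = y :=
  les_exact₂ hX n y hy

omit hX in
/-- `g_* ∘ f_* = 0` (needs only `X.f ≫ X.g = 0`). -/
theorem hlc_zero₂ (D : LevelDatum G) (X : ShortComplex (Rep.{0} k G)) (n : ℕ)
    (x : Hlc D X.X₁ n) : hlcPush D X.g n (hlcPush D X.f n x) = 0 :=
  les_zero₂ (X := X.map (lcFunctor k D)) n x

/-- Exactness at `Hⁿ(X₃)`. -/
theorem hlc_exact₃ (z : Hlc D X.X₃ n) (hz : hlcDelta hX n z = 0) :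
    ∃ y : Hlc D X.X₂ n, hlcPush D X.g n y = z :=
  les_exact₃ hX n z hz

/-- `δ ∘ g_* = 0`. -/
theorem hlc_zero₃ (y : Hlc D X.X₂ n) : hlcDelta hX n (hlcPush D X.g n y) = 0 :=
  les_zero₃ hX n y

/-- Exactness at `Hⁿ⁺¹(X₁)`. -/
theorem hlc_exact₁ (x : Hlc D X.X₁ (n + 1)) (hx : hlcPush D X.f (n + 1) x = 0) :
    ∃ z : Hlc D X.X₃ n, hlcDelta hX n z = x :=
  les_exact₁ hX n x hx

/-- `f_* ∘ δ = 0`. -/
theorem hlc_zero₁ (z : Hlc D X.X₃ n) : hlcPush D X.f (n + 1) (hlcDelta hX n z) = 0 :=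
  les_zero₁ hX n z

/-- THE LONG EXACT SEQUENCE OF LEVEL-CONSTANT COHOMOLOGY IN ELEMENT FORM (all six clauses at
once), `… → Hⁿ(X₁) → Hⁿ(X₂) → Hⁿ(X₃) → Hⁿ⁺¹(X₁) → Hⁿ⁺¹(X₂) → …`. -/
theorem hlc_les :
    (∀ y : Hlc D X.X₂ n, hlcPush D X.g n y = 0 → ∃ x : Hlc D X.X₁ n, hlcPush D X.f n x = y) ∧
    (∀ x : Hlc D X.X₁ n, hlcPush D X.g n (hlcPush D X.f n x) = 0) ∧
    (∀ z : Hlc D X.X₃ n, hlcDelta hX n z = 0 → ∃ y : Hlc D X.X₂ n, hlcPush D X.g n y = z) ∧
    (∀ y : Hlc D X.X₂ n, hlcDelta hX n (hlcPush D X.g n y) = 0) ∧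
    (∀ x : Hlc D X.X₁ (n + 1), hlcPush D X.f (n + 1) x = 0 →
      ∃ z : Hlc D X.X₃ n, hlcDelta hX n z = x) ∧
    (∀ z : Hlc D X.X₃ n, hlcPush D X.f (n + 1) (hlcDelta hX n z) = 0) :=
  ⟨hlc_exact₂ hX n, hlc_zero₂ D X n, hlc_exact₃ hX n, hlc_zero₃ hX n, hlc_exact₁ hX n,
    hlc_zero₁ hX n⟩

/-- THE CONNECTING MAP ON LEVEL-CONSTANT COCYCLES: if the level-constant cochain `y` with values
in `X₂` lifts the `n`-cocycle `z` with values in `X₃` and the `(n+1)`-cocycle `x` with values in
`X₁` maps to `d y`, then `δ [z] = [x]`. -/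
theorem hlcDelta_cls (z : cyc (lcComplex D X.X₃) n) (y : (lcComplex D X.X₂).X n)
    (hy : ∀ g : Fin n → G, X.g.hom (lcValC y g) = lcVal z g)
    (x : cyc (lcComplex D X.X₁) (n + 1))
    (hx : ∀ g : Fin (n + 1) → G, X.f.hom (lcVal x g) =
      (inhomogeneousCochains.d X.X₂ n).hom (lcValC y) g) :
    hlcDelta hX n ((cls (lcComplex D X.X₃) n).hom z) = (cls (lcComplex D X.X₁) (n + 1)).hom x := by
  refine lesDelta_cls hX n z y ?_ x ?_
  · apply lcValC_injective
    funext g
    exact hy g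
  · apply lcValC_injective
    funext g
    exact (hx g).trans (congrFun (lcValC_lcD D X.X₂ y) g).symm

include hX in
/-- Representatives for the connecting map always exist. -/
theorem exists_hlcDelta_rep (z : cyc (lcComplex D X.X₃) n) :
    ∃ (y : (lcComplex D X.X₂).X n) (x : cyc (lcComplex D X.X₁) (n + 1)),
      (∀ g : Fin n → G, X.g.hom (lcValC y g) = lcVal z g) ∧
      ∀ g : Fin (n + 1) → G, X.f.hom (lcVal x g) =
        (inhomogeneousCochains.d X.X₂ n).hom (lcValC y) g := by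
  obtain ⟨y, x, hy, hx⟩ := exists_lesDelta_rep hX n z
  refine ⟨y, x, fun g => ?_, fun g => ?_⟩
  · exact congrFun (congrArg lcValC hy) g
  · have e := congrFun (congrArg lcValC hx) g
    exact e.trans (congrFun (lcValC_lcD D X.X₂ y) g)

omit hX in
/-- The short exact sequence of level-constant complexes attached to a short exact sequence of
coefficients with smooth middle term (`H49.lc_shortExact`). -/
theorem lc_shortExact_of_smooth (D : LevelDatum G) (X : ShortComplex (Rep.{0} k G))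
    (hX : X.ShortExact) (hs : D.Smooth X.X₂) : (X.map (lcFunctor k D)).ShortExact :=
  lc_shortExact k G D X hX hs

end Hlc

/-! ### Naturality of the connecting map of level-constant cohomology -/

section HlcNaturality

variable {G : Type} [Group G] {D : LevelDatum G}

/-- Naturality of `hlcDelta` in the short exact sequence of coefficients. -/
theorem hlcDelta_naturality {X Y : ShortComplex (Rep.{0} k G)} (φ : X ⟶ Y)
    (hX : (X.map (lcFunctor k D)).ShortExact) (hY : (Y.map (lcFunctor k D)).ShortExact) (n : ℕ)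
    (z : Hlc D X.X₃ n) :
    hlcPush D φ.τ₁ (n + 1) (hlcDelta hX n z) = hlcDelta hY n (hlcPush D φ.τ₃ n z) :=
  lesDelta_naturality ((lcFunctor k D).mapShortComplex.map φ) hX hY n z

variable {G' : Type} [Group G'] {D' : LevelDatum G'}

/-- Restriction on level-constant cohomology along a morphism of level data. -/
def hlcRes (h : D'.Hom D) (A : Rep.{0} k G) (n : ℕ) :
    Hlc D A n →ₗ[k] Hlc D' (Rep.res h.φ A) n :=
  (HomologicalComplex.homologyMap (lcRes h A) n).hom

theorem hlcRes_cls (h : D'.Hom D) (A : Rep.{0} k G) (n : ℕ) (z : cyc (lcComplex D A) n) :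
    hlcRes h A n ((cls (lcComplex D A) n).hom z) =
      (cls (lcComplex D' (Rep.res h.φ A)) n).hom (cycMap (lcRes h A) n z) :=
  homologyMap_cls _ n z

/-- Restriction commutes with the maps induced by morphisms of coefficients. -/
theorem hlcRes_hlcPush (h : D'.Hom D) {A B : Rep.{0} k G} (ψ : A ⟶ B) (n : ℕ) (x : Hlc D A n) :
    hlcRes h B n (hlcPush D ψ n x) =
      hlcPush D' ((Rep.resFunctor h.φ).map ψ) n (hlcRes h A n x) := by
  have e : lcMapCoeff D ψ ≫ lcRes h B = lcRes h A ≫ lcMapCoeff D' ((Rep.resFunctor h.φ).map ψ) :=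
    rfl
  have e2 := congrArg (fun t => HomologicalComplex.homologyMap t n) e
  simp only [HomologicalComplex.homologyMap_comp] at e2
  exact LinearMap.congr_fun (ModuleCat.hom_ext_iff.mp e2) x

/-- Restriction, as a morphism of short complexes of level-constant complexes. -/
def lcResShort (h : D'.Hom D) (X : ShortComplex (Rep.{0} k G)) :
    X.map (lcFunctor k D) ⟶ (X.map (Rep.resFunctor h.φ)).map (lcFunctor k D') where
  τ₁ := lcRes h X.X₁
  τ₂ := lcRes h X.X₂
  τ₃ := lcRes h X.X₃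
  comm₁₂ := rfl
  comm₂₃ := rfl

/-- Restriction commutes with the connecting maps. -/
theorem hlcRes_hlcDelta (h : D'.Hom D) {X : ShortComplex (Rep.{0} k G)}
    (hX : (X.map (lcFunctor k D)).ShortExact)
    (hX' : ((X.map (Rep.resFunctor h.φ)).map (lcFunctor k D')).ShortExact) (n : ℕ)
    (z : Hlc D X.X₃ n) :
    hlcRes h X.X₁ (n + 1) (hlcDelta hX n z) = hlcDelta hX' n (hlcRes h X.X₃ n z) :=
  lesDelta_naturality (lcResShort h X) hX hX' n z

end HlcNaturality

end Fermat.Agent.S55.H41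

end
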