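/-
S55 / Program C, package C4 (helper26), leaf (HB-ND) — part 1 (helper41): Kummer theory for a
finite extension `E ∋ ζ` of `ℚ_q` inside `Ω = PadicAlgCl q`, in the vocabulary of
`H26.LocalHilbertSpec`.

* `kummer_coboundary_identity` : the abstract identity `d(β^t)(g, h) = ζ^(k g * t h) * b^(e g h)`;
* `exists_kummer_root`   : every level-constant character `χ` of `Gal(Ω/E)` has a Kummer
  generator `α` (`σ α = ζ ^ χ σ * α`, `α ^ p ∈ E`);
* `exists_kummer_char`   : every `p`-th root `β` of `b ∈ Eˣ` defines a level-constant character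
  `ψ` with `σ β = ζ ^ ψ σ * β`;
* `normal_adjoin_of_forall_mem`, `exists_exp_of_pow_mem` : Kummer extensions are normal.
-/
import Fermat.Agent.S55.H26.LocalHilbertSpec
import Fermat.Agent.S55.H33.HilbertDim

set_option autoImplicit false

open CategoryTheory

noncomputable section

namespace Fermat.Agent.S55.H41

open Fermat.Agent.S55.H49 Fermat.Agent.S55.H26 Fermat.Agent.S55.H66 Fermat.Agent.S55.H72
open Fermat.Agent.S55.H33 IntermediateField

section Abstract

variable {Γ M : Type} [Group Γ] [CommGroup M] [MulDistribMulAction Γ M]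

/-- The Kummer identity: if `g • β = ζ ^ k g * β`, `β ^ p = b` and
`t g + t h = t (g * h) + p * e g h`, then the coboundary of `g ↦ β ^ t g` is
`(g, h) ↦ ζ ^ (k g * t h) * b ^ e g h`. -/
theorem kummer_coboundary_identity (p : ℕ) (ζ β b : M) (hb : β ^ p = b) (k t : Γ → ℕ)
    (e : Γ → Γ → ℕ) (hk : ∀ g, g • β = ζ ^ k g * β)
    (ht : ∀ g h, t g + t h = t (g * h) + p * e g h) (g h : Γ) :
    g • (β ^ t h) / β ^ t (g * h) * β ^ t g = ζ ^ (k g * t h) * b ^ e g h := by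
  have h1 : β ^ t h * β ^ t g = β ^ t (g * h) * b ^ e g h := by
    rw [← pow_add, add_comm, ht, pow_add, pow_mul, hb]
  rw [smul_pow', hk, mul_pow, ← pow_mul, div_mul_eq_mul_div, div_eq_iff_eq_mul, mul_assoc, h1]
  rw [mul_assoc, mul_comm (b ^ e g h)]

end Abstract

variable (p : ℕ) [Fact p.Prime] (q : ℕ) [Fact q.Prime]

/-- Elements of `Gal(Ω/E)` multiply `p`-th roots of elements of `E` by `p`-th roots of unity. -/
theorem exists_exp_of_pow_mem {ζ : PadicAlgCl q} (hζ : IsPrimitiveRoot ζ p)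
    (E : IntermediateField ℚ_[q] (PadicAlgCl q)) {x : PadicAlgCl q} (hx0 : x ≠ 0)
    (hxE : x ^ p ∈ E) (σ : PadicAlgCl q ≃ₐ[E] PadicAlgCl q) :
    ∃ a : ZMod p, σ x = ζ ^ a.val * x := by
  have h0 : σ (x ^ p) = x ^ p := σ.commutes ⟨x ^ p, hxE⟩
  have h1 : (σ x / x) ^ p = 1 := by
    rw [div_pow, ← map_pow, h0, div_self (pow_ne_zero p hx0)]
  obtain ⟨a, ha⟩ := exists_zpowVal_eq hζ h1
  exact ⟨a, by rw [ha, div_mul_cancel₀ _ hx0]⟩

/-- An intermediate field generated by a set which every automorphism maps into it is normal. -/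
theorem normal_adjoin_of_forall_mem (E : IntermediateField ℚ_[q] (PadicAlgCl q))
    (S : Set (PadicAlgCl q))
    (h : ∀ σ : PadicAlgCl q ≃ₐ[E] PadicAlgCl q, ∀ x ∈ S, σ x ∈ IntermediateField.adjoin E S) :
    Normal E (IntermediateField.adjoin E S) := by
  haveI : Normal E (PadicAlgCl q) := Normal.tower_top_of_normal ℚ_[q] E (PadicAlgCl q)
  rw [IntermediateField.normal_iff_forall_map_le']
  intro σ
  rw [IntermediateField.adjoin_map, IntermediateField.adjoin_le_iff]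
  rintro _ ⟨x, hx, rfl⟩
  exact h σ x hx

/-- Elements of `Gal(Ω/E)` fix `E` pointwise. -/
theorem fixingSubgroup_apply_of_mem (E : IntermediateField ℚ_[q] (PadicAlgCl q))
    (σ : E.fixingSubgroup) {x : PadicAlgCl q} (hx : x ∈ E) : (σ : GalQ q) x = x :=
  (IntermediateField.mem_fixingSubgroup_iff E σ.1).mp σ.2 x hx

/-- An element of `Ω` fixed by `Gal(Ω/E)` lies in `E`. -/
theorem mem_of_forall_fixingSubgroup (E : IntermediateField ℚ_[q] (PadicAlgCl q))
    {x : PadicAlgCl q} (hx : ∀ σ : E.fixingSubgroup, (σ : GalQ q) x = x) : x ∈ E := by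
  rw [← InfiniteGalois.fixedField_fixingSubgroup E, IntermediateField.mem_fixedField_iff]
  intro σ hσ
  exact hx ⟨σ, hσ⟩

/-- **Kummer generator** of a level-constant character `χ` of `Gal(Ω/E)`, `E ∋ ζ`:
`σ α = ζ ^ χ σ * α`, and `α ^ p ∈ E`. -/
theorem exists_kummer_root (hLVL : LocalFieldLevelsStatement q) {ζ : PadicAlgCl q}
    (hζ : IsPrimitiveRoot ζ p) (E : IntermediateField ℚ_[q] (PadicAlgCl q))
    [FiniteDimensional ℚ_[q] E] (hζE : ζ ∈ E)
    (χ : levelHoms (k := ZMod p) (Dloc q) E.fixingSubgroup) :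
    ∃ α : PadicAlgCl q, α ≠ 0 ∧ α ^ p ∈ E ∧
      ∀ σ : E.fixingSubgroup, (σ : GalQ q) α = ζ ^ (χ.1 σ).val * α := by
  obtain ⟨χ, hχhom, F', hF', hχF⟩ := χ
  have hζp : ζ ^ p = 1 := hζ.pow_eq_one
  obtain ⟨L₀, hL₀fin, hL₀gal, hL₀sub⟩ := hLVL.1 F' hF'
  obtain ⟨L', hL'fin, hL'gal, hL'⟩ := exists_galois_over E L₀
  -- `χ` factors through `Gal(L'/E)`
  have hfac : ∀ h₁ h₂ : E.fixingSubgroup, resE E L' h₁ = resE E L' h₂ → χ h₂ = χ h₁ := by
    intro h₁ h₂ h12
    have hn : ((h₁⁻¹ * h₂ : E.fixingSubgroup) : GalQ q) ∈ (Dloc q).sub F' := by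
      refine hL₀sub ?_
      rw [IntermediateField.mem_fixingSubgroup_iff]
      intro x hx
      have e1 := resE_apply_coe E L' h₁ ⟨x, hL' x hx⟩
      have e2 := resE_apply_coe E L' h₂ ⟨x, hL' x hx⟩
      rw [h12] at e1
      have e3 : (h₂ : GalQ q) x = (h₁ : GalQ q) x := e2.symm.trans e1
      show (h₁ : GalQ q)⁻¹ ((h₂ : GalQ q) x) = x
      rw [e3]
      exact (h₁ : GalQ q).symm_apply_apply x
    have := hχF h₁ (h₁⁻¹ * h₂) hn
    rwa [mul_inv_cancel_left] at this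
  have hsurj := resE_surjective E L'
  let s : (L' ≃ₐ[E] L') → E.fixingSubgroup := Function.surjInv hsurj
  have hs : ∀ g, resE E L' (s g) = g := Function.surjInv_eq hsurj
  have hχs : ∀ h : E.fixingSubgroup, χ (s (resE E L' h)) = χ h :=
    fun h => hfac h (s (resE E L' h)) (hs _).symm
  have hζ'p : (algebraMap E L' ⟨ζ, hζE⟩ : L') ^ p = 1 := by
    apply Subtype.ext
    show ζ ^ p = 1
    exact hζp
  have hcadd : ∀ g h : L' ≃ₐ[E] L', χ (s (g * h)) = χ (s g) + χ (s h) := by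
    intro g h
    rw [← hχhom]
    exact hfac (s g * s h) (s (g * h)) (by rw [map_mul, hs, hs, hs])
  -- Hilbert 90
  obtain ⟨β', hβ'0, hβ'⟩ := exists_kummer_generator (K := E) (L := L') p
    (algebraMap E L' ⟨ζ, hζE⟩) hζ'p (fun g => g.commutes _) (fun g => χ (s g)) hcadd
  have hβ0 : (β' : PadicAlgCl q) ≠ 0 := fun h0 => hβ'0 (Subtype.ext h0)
  have hσβ : ∀ σ : E.fixingSubgroup,
      (σ : GalQ q) (β' : PadicAlgCl q) = ζ ^ (χ σ).val * (β' : PadicAlgCl q) := by
    intro σ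
    have h1 := hβ' (resE E L' σ)
    have h3 := congrArg (fun u : L' => (u : PadicAlgCl q)) h1
    simp only [resE_apply_coe] at h3
    rw [h3, hχs σ]
    rfl
  refine ⟨(β' : PadicAlgCl q), hβ0, ?_, hσβ⟩
  refine mem_of_forall_fixingSubgroup q E fun σ => ?_
  rw [map_pow, hσβ σ, mul_pow, ← pow_mul, mul_comm _ p, pow_mul, hζp, one_pow, one_mul]

/-- **Kummer character** of a `p`-th root `β` of an element of `E ∋ ζ`: a level-constant
character `ψ` of `Gal(Ω/E)` with `σ β = ζ ^ ψ σ * β`. -/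
theorem exists_kummer_char (hLVL : LocalFieldLevelsStatement q) {ζ : PadicAlgCl q}
    (hζ : IsPrimitiveRoot ζ p) (E : IntermediateField ℚ_[q] (PadicAlgCl q))
    [FiniteDimensional ℚ_[q] E] (hζE : ζ ∈ E) {β : PadicAlgCl q} (hβ0 : β ≠ 0)
    (hβE : β ^ p ∈ E) :
    ∃ ψ : levelHoms (k := ZMod p) (Dloc q) E.fixingSubgroup,
      ∀ σ : E.fixingSubgroup, (σ : GalQ q) β = ζ ^ (ψ.1 σ).val * β := by
  have hζp : ζ ^ p = 1 := hζ.pow_eq_one
  have hfixζ : ∀ σ : E.fixingSubgroup, (σ : GalQ q) ζ = ζ :=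
    fun σ => fixingSubgroup_apply_of_mem q E σ hζE
  have hex : ∀ σ : E.fixingSubgroup, ∃ a : ZMod p, (σ : GalQ q) β = ζ ^ a.val * β :=
    fun σ => exists_exp_of_pow_mem p q hζ E hβ0 hβE (IntermediateField.fixingSubgroupEquiv E σ)
  choose kap hkap using hex
  have huniq : ∀ (σ : E.fixingSubgroup) (a : ZMod p), (σ : GalQ q) β = ζ ^ a.val * β →
      kap σ = a := by
    intro σ a ha
    have h1 := hkap σ
    rw [ha] at h1
    exact (zpowVal_inj hζ (mul_right_cancel₀ hβ0 h1)).symm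
  have hhom : ∀ σ τ : E.fixingSubgroup, kap (σ * τ) = kap σ + kap τ := by
    intro σ τ
    refine huniq (σ * τ) _ ?_
    show (σ : GalQ q) ((τ : GalQ q) β) = _
    rw [hkap τ, map_mul, map_pow, hfixζ σ, hkap σ, zpowVal_add hζp]
    ring
  have hlev : IsLevelFun₁ (Dloc q) E.fixingSubgroup kap := by
    have hfin : FiniteDimensional ℚ_[q] ℚ_[q]⟮β⟯ :=
      IntermediateField.adjoin.finiteDimensional (Algebra.IsIntegral.isIntegral β)
    obtain ⟨F, hF, -, hsub⟩ := hLVL.2.1 ℚ_[q]⟮β⟯ hfin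
    refine ⟨F, hF, fun h n hn => ?_⟩
    have hn' : (n : GalQ q) β = β :=
      (IntermediateField.mem_fixingSubgroup_iff _ _).mp (hsub hn) β
        (IntermediateField.mem_adjoin_simple_self ℚ_[q] β)
    have h0 : kap n = 0 := by
      refine huniq n 0 ?_
      rw [hn', ZMod.val_zero, pow_zero, one_mul]
    rw [hhom, h0, add_zero]
  exact ⟨⟨kap, hhom, hlev⟩, hkap⟩

end Fermat.Agent.S55.H41

end
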