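/-
S55 / Program C, package C4 (helper26), leaf (HB-ND) — part 2 (helper41): the Kummer field
`E(S)` of a set `S` of `p`-th roots of elements of `E ∋ ζ`, and the Galois group of `E(α)` for
the Kummer generator `α` of a character `χ`.
-/
import Fermat.Agent.S55.H41.HilbertKummer
import Fermat.Agent.S55.H24.Inv
import Fermat.Agent.S55.H37.CycCocycle

set_option autoImplicit false

open CategoryTheory

noncomputable section

namespace Fermat.Agent.S55.H41

open Fermat.Agent.S55.H49 Fermat.Agent.S55.H26 Fermat.Agent.S55.H66 Fermat.Agent.S55.H72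
open Fermat.Agent.S55.H33 IntermediateField

section AddChar

variable {p : ℕ} [Fact p.Prime] {H : Type} [Group H] (χ : H → ZMod p)
  (hχ : ∀ a b : H, χ (a * b) = χ a + χ b)

include hχ

theorem addChar_one : χ 1 = 0 := by
  have := hχ 1 1
  rw [mul_one] at this
  exact left_eq_add.mp this

theorem addChar_pow (h : H) (n : ℕ) : χ (h ^ n) = (n : ZMod p) * χ h := by
  induction n with
  | zero => rw [pow_zero, addChar_one χ hχ, Nat.cast_zero, zero_mul]
  | succ n ih => rw [pow_succ, hχ, ih, Nat.cast_succ, add_mul, one_mul]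

theorem addChar_inv (h : H) : χ h⁻¹ = -χ h := by
  have := hχ h⁻¹ h
  rw [inv_mul_cancel, addChar_one χ hχ] at this
  exact eq_neg_of_add_eq_zero_left this.symm

theorem exists_addChar_eq_one (hne : ∃ h : H, χ h ≠ 0) : ∃ h₀ : H, χ h₀ = 1 := by
  obtain ⟨h₁, h1⟩ := hne
  refine ⟨h₁ ^ ((χ h₁)⁻¹).val, ?_⟩
  rw [addChar_pow χ hχ, ZMod.natCast_zmod_val, inv_mul_cancel₀ h1]

end AddChar

variable (p : ℕ) [Fact p.Prime] (q : ℕ) [Fact q.Prime]

section KummerField

variable (E : IntermediateField ℚ_[q] (PadicAlgCl q)) {ζ : PadicAlgCl q}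
  (hζ : IsPrimitiveRoot ζ p) (hζE : ζ ∈ E) (S : Set (PadicAlgCl q))
  (hS : ∀ x ∈ S, x ≠ 0 ∧ x ^ p ∈ E)

include hζ hζE hS in
/-- A field generated over `E ∋ ζ` by `p`-th roots of elements of `E` is normal over `E`. -/
theorem normal_kummer : Normal E (IntermediateField.adjoin E S) := by
  refine normal_adjoin_of_forall_mem q E S fun σ x hx => ?_
  obtain ⟨a, ha⟩ := exists_exp_of_pow_mem p q hζ E (hS x hx).1 (hS x hx).2 σ
  rw [ha]
  refine mul_mem (pow_mem ?_ _) (IntermediateField.subset_adjoin E S hx)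
  exact (IntermediateField.adjoin E S).algebraMap_mem ⟨ζ, hζE⟩

/-- A field generated over `E` by finitely many elements of `Ω` is finite over `E`. -/
theorem finiteDimensional_kummer [FiniteDimensional ℚ_[q] E] [Finite S] :
    FiniteDimensional E (IntermediateField.adjoin E S) :=
  IntermediateField.finiteDimensional_adjoin fun x _ =>
    (Algebra.IsIntegral.isIntegral (R := ℚ_[q]) x).tower_top

include hζ hζE hS in
/-- A field generated over `E ∋ ζ` by `p`-th roots of elements of `E` is Galois over `E`. -/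
theorem isGalois_kummer : IsGalois E (IntermediateField.adjoin E S) := by
  haveI := normal_kummer p q E hζ hζE S hS
  exact ⟨⟩

/-- An element of `Gal(Ω/E)` fixing `S` pointwise fixes `E(S)` pointwise. -/
theorem fixes_adjoin (h : E.fixingSubgroup) (hh : ∀ x ∈ S, (h : GalQ q) x = x)
    {x : PadicAlgCl q} (hx : x ∈ IntermediateField.adjoin E S) : (h : GalQ q) x = x := by
  induction hx using IntermediateField.adjoin_induction with
  | mem x hx => exact hh x hx
  | algebraMap x => exact fixingSubgroup_apply_of_mem q E h x.2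
  | add x y _ _ hx hy => rw [map_add, hx, hy]
  | inv x _ hx => rw [map_inv₀, hx]
  | mul x y _ _ hx hy => rw [map_mul, hx, hy]

end KummerField

section CharField

variable (E : IntermediateField ℚ_[q] (PadicAlgCl q)) {ζ : PadicAlgCl q}
  (hζ : IsPrimitiveRoot ζ p) (χ : E.fixingSubgroup → ZMod p)
  (hχ : ∀ a b : E.fixingSubgroup, χ (a * b) = χ a + χ b)
  {α : PadicAlgCl q} (hα0 : α ≠ 0)
  (hα : ∀ σ : E.fixingSubgroup, (σ : GalQ q) α = ζ ^ (χ σ).val * α)
  (L : IntermediateField E (PadicAlgCl q)) [Normal E L] (hαL : α ∈ L)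
  (hLfix : ∀ h : E.fixingSubgroup, (h : GalQ q) α = α → ∀ x ∈ L, (h : GalQ q) x = x)

include hζ hχ hα0 hα hαL hLfix in
/-- Two elements of `Gal(Ω/E)` have the same restriction to `L = E(α)` iff `χ` takes the same
value on them. -/
theorem resE_eq_iff (h₁ h₂ : E.fixingSubgroup) :
    resE E L h₁ = resE E L h₂ ↔ χ h₁ = χ h₂ := by
  constructor
  · intro h
    have e1 := resE_apply_coe E L h₁ ⟨α, hαL⟩
    have e2 := resE_apply_coe E L h₂ ⟨α, hαL⟩
    rw [h] at e1
    have e3 : (h₁ : GalQ q) α = (h₂ : GalQ q) α := e1.symm.trans e2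
    rw [hα h₁, hα h₂] at e3
    exact zpowVal_inj hζ (mul_right_cancel₀ hα0 e3)
  · intro h
    have hfix : ((h₁⁻¹ * h₂ : E.fixingSubgroup) : GalQ q) α = α := by
      rw [hα, hχ, addChar_inv χ hχ, h, neg_add_cancel, ZMod.val_zero, pow_zero, one_mul]
    refine AlgEquiv.ext fun x => Subtype.ext ?_
    rw [resE_apply_coe, resE_apply_coe]
    have := hLfix _ hfix x x.2
    have e : ((h₁⁻¹ * h₂ : E.fixingSubgroup) : GalQ q) (x : PadicAlgCl q) =
        (h₁ : GalQ q).symm ((h₂ : GalQ q) (x : PadicAlgCl q)) := rfl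
    rw [e] at this
    have e2 := congrArg (h₁ : GalQ q) this
    rw [AlgEquiv.apply_symm_apply] at e2
    exact e2.symm

variable {h₀ : E.fixingSubgroup} (h0 : χ h₀ = 1)

include hζ hχ hα0 hα hαL hLfix h0

/-- Every restriction is a power of the restriction of `h₀`. -/
theorem resE_eq_pow (h : E.fixingSubgroup) : resE E L h = resE E L h₀ ^ (χ h).val := by
  rw [← map_pow, resE_eq_iff p q E hζ χ hχ hα0 hα L hαL hLfix, addChar_pow χ hχ, h0, mul_one,
    ZMod.natCast_zmod_val]

theorem orderOf_resE : orderOf (resE E L h₀) = p := by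
  have hp : p.Prime := Fact.out
  have h1 : (1 : L ≃ₐ[E] L) = resE E L 1 := (map_one (resE E L)).symm
  refine orderOf_eq_prime ?_ ?_
  · rw [← map_pow, h1, resE_eq_iff p q E hζ χ hχ hα0 hα L hαL hLfix,
      addChar_pow χ hχ, h0, mul_one, addChar_one χ hχ, CharP.cast_eq_zero]
  · intro h
    rw [h1, resE_eq_iff p q E hζ χ hχ hα0 hα L hαL hLfix, h0,
      addChar_one χ hχ] at h
    exact one_ne_zero h

theorem mem_zpowers_resE (g : L ≃ₐ[E] L) : g ∈ Subgroup.zpowers (resE E L h₀) := by
  obtain ⟨h, rfl⟩ := resE_surjective E L g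
  rw [resE_eq_pow p q E hζ χ hχ hα0 hα L hαL hLfix h0 h]
  exact Subgroup.npow_mem_zpowers (resE E L h₀) _

theorem cycIdx_resE (h : E.fixingSubgroup) :
    cycIdx (resE E L h₀) (resE E L h) = (χ h).val := by
  rw [resE_eq_pow p q E hζ χ hχ hα0 hα L hαL hLfix h0 h, H37.cycIdx_pow,
    orderOf_resE p q E hζ χ hχ hα0 hα L hαL hLfix h0, Nat.mod_eq_of_lt (ZMod.val_lt _)]

end CharField

end Fermat.Agent.S55.H41

end
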