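/-
S55 / Program C, package C4 (helper26), leaf (HB-ND) — part 3 (helper41): nondegeneracy of the
Hilbert pairing of `E ∋ ζ`.

For `χ ≠ 0` a level-constant character of `Gal(Ω/E)`: `L = E(α)` its cyclic field (Kummer
generator `α`), `σ₀` the generator with `χ σ₀ = 1`, `b ∈ Eˣ` not a norm from `L`
(`H66.LeafNormIndex`), `β ^ p = b`, `ψ` the Kummer character of `β`, `M = E(α, β)`.  On
`Gal(M/E)`: `ζ ^ (ψ σ * χ τ) = d(β ^ χ̃)(σ, τ) - infl(cyc cocycle of (σ₀, b))(σ, τ)`, so the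
invariant of the product cocycle is `-inv (cycClass σ₀ b) ≠ 0`.
-/
import Fermat.Agent.S55.H41.HilbertField
import Fermat.Agent.S55.H26.LocalInvAssembly

set_option autoImplicit false

open CategoryTheory

noncomputable section

namespace Fermat.Agent.S55.H41

open Fermat.Agent.S55.H49 Fermat.Agent.S55.H26 Fermat.Agent.S55.H66 Fermat.Agent.S55.H72
open Fermat.Agent.S55.H33 Fermat.Agent.S55.H24 IntermediateField groupCohomology

section Core

variable {q : ℕ} [Fact q.Prime]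
variable {F : Type} [Field F] [Algebra F (PadicAlgCl q)]

/-- A unit of `L` as an element of the Galois module `Lˣ`. -/
def ofUnit (L : IntermediateField F (PadicAlgCl q)) (u : Lˣ) : Rep.ofAlgebraAutOnUnits F L :=
  Rep.toAdditive.symm (Additive.ofMul u)

theorem toUnit_ofUnit (L : IntermediateField F (PadicAlgCl q)) (u : Lˣ) :
    toUnit L (ofUnit L u) = u := rfl

theorem toUnit_sub (L : IntermediateField F (PadicAlgCl q))
    (x y : Rep.ofAlgebraAutOnUnits F L) : toUnit L (x - y) = toUnit L x / toUnit L y := by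
  rw [eq_div_iff_mul_eq', ← toUnit_add, sub_add_cancel]

theorem toUnit_zero (L : IntermediateField F (PadicAlgCl q)) :
    toUnit L (0 : Rep.ofAlgebraAutOnUnits F L) = 1 := rfl

theorem toUnit_rho_smul (L : IntermediateField F (PadicAlgCl q)) (g : L ≃ₐ[F] L)
    (x : Rep.ofAlgebraAutOnUnits F L) :
    toUnit L ((Rep.ofAlgebraAutOnUnits F L).ρ g x) = g • toUnit L x :=
  Units.ext (toUnit_rho L g x)

variable {L M : IntermediateField F (PadicAlgCl q)} [Normal F L]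

theorem toUnit_inflRep_baseUnit (hLM : L ≤ M) (b : Fˣ) :
    toUnit M ((inflRep hLM).hom (baseUnit L b)) = Units.map (algebraMap F M : F →* M) b :=
  Units.ext rfl

/-- **The Kummer cocycle.**  `L ≤ M` over `F`, `Gal(L/F) = ⟨σ₀⟩` of order `p`, `b ∈ Fˣ`,
`β ∈ Mˣ` with `β ^ p = b` and `γ β = ζ ^ k γ * β`.  Then the cochain
`(γ, γ') ↦ ζ ^ (k γ * idx (γ'|L))` is a 2-cocycle of `Gal(M/F)` in `Mˣ`, cohomologous to minus
the inflation of the cyclic cocycle of `(σ₀, b)`. -/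
theorem exists_kummer_cocycle (p : ℕ) (hp : 0 < p) (hLM : L ≤ M) (σ₀ : L ≃ₐ[F] L)
    (hord : orderOf σ₀ = p) (hgen : ∀ g : L ≃ₐ[F] L, g ∈ Subgroup.zpowers σ₀) (b : Fˣ)
    (β ζ : Mˣ) (hβ : β ^ p = Units.map (algebraMap F M : F →* M) b)
    (k : (M ≃ₐ[F] M) → ℕ) (hk : ∀ γ : M ≃ₐ[F] M, γ • β = ζ ^ k γ * β) :
    ∃ c : cocycles₂ (Rep.ofAlgebraAutOnUnits F M),
      H2π (Rep.ofAlgebraAutOnUnits F M) c =
        -(inflH2 hLM).hom (cycClass (Rep.ofAlgebraAutOnUnits F L) σ₀ (baseUnit L b)) ∧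
      ∀ γ γ' : M ≃ₐ[F] M,
        c.1 (γ, γ') = ofUnit M (ζ ^ (k γ * cycIdx σ₀ (resHom hLM γ'))) := by
  have hn : 0 < orderOf σ₀ := by rw [hord]; exact hp
  set t : (M ≃ₐ[F] M) → ℕ := fun γ => cycIdx σ₀ (resHom hLM γ) with ht_def
  set e : (M ≃ₐ[F] M) → (M ≃ₐ[F] M) → ℕ := fun γ γ' => if p ≤ t γ + t γ' then 1 else 0
    with he_def
  have htlt : ∀ γ, t γ < p := fun γ => by
    have := H37.cycIdx_lt σ₀ hn (resHom hLM γ) (hgen _)
    rwa [hord] at this
  have ht : ∀ γ γ', t γ + t γ' = t (γ * γ') + p * e γ γ' := by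
    intro γ γ'
    have h1 : t (γ * γ') = (t γ + t γ') % p := by
      show cycIdx σ₀ (resHom hLM (γ * γ')) = _
      rw [map_mul, ← H37.pow_cycIdx σ₀ hn (resHom hLM γ) (hgen _),
        ← H37.pow_cycIdx σ₀ hn (resHom hLM γ') (hgen _), ← pow_add, H37.cycIdx_pow, hord]
    have h2 := htlt γ
    have h3 := htlt γ'
    rw [h1]
    show _ = _ + p * (if p ≤ t γ + t γ' then 1 else 0)
    split_ifs with h
    · rw [Nat.mod_eq_sub_mod h, Nat.mod_eq_of_lt (by omega)]
      omega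
    · rw [Nat.mod_eq_of_lt (by omega)]
      omega
  -- the cocycles
  have hcyc := H37.cycFun_mem (Rep.ofAlgebraAutOnUnits F L) σ₀ hn hgen (baseUnit L b)
    (baseUnit_invariant L b)
  let zc : cocycles₂ (Rep.ofAlgebraAutOnUnits F L) :=
    ⟨cycFun (Rep.ofAlgebraAutOnUnits F L) σ₀ (baseUnit L b), hcyc⟩
  let x₀ : (M ≃ₐ[F] M) → Rep.ofAlgebraAutOnUnits F M := fun γ => ofUnit M (β ^ t γ)
  let d0 : cocycles₂ (Rep.ofAlgebraAutOnUnits F M) :=
    ⟨(d₁₂ (Rep.ofAlgebraAutOnUnits F M)).hom x₀, coboundaries₂_le_cocycles₂ _ ⟨x₀, rfl⟩⟩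
  have hd0 : H2π (Rep.ofAlgebraAutOnUnits F M) d0 = 0 := (H2π_eq_zero_iff d0).mpr ⟨x₀, rfl⟩
  refine ⟨d0 - mapCocycles₂ (resHom hLM) (inflRep hLM) zc, ?_, ?_⟩
  · rw [map_sub, hd0, zero_sub, H37.cycClass_eq _ σ₀ _ hcyc]
    congr 1
    exact (H2π_comp_map_apply (resHom hLM) (inflRep hLM) zc).symm
  · intro γ γ'
    apply toUnit_injective
    have key := kummer_coboundary_identity p ζ β _ hβ k t e hk ht γ γ'
    show toUnit M (((Rep.ofAlgebraAutOnUnits F M).ρ γ (x₀ γ') - x₀ (γ * γ') + x₀ γ) -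
      (inflRep hLM).hom (cycFun (Rep.ofAlgebraAutOnUnits F L) σ₀ (baseUnit L b)
        (resHom hLM γ, resHom hLM γ'))) = _
    rw [toUnit_sub, toUnit_add, toUnit_sub, toUnit_rho_smul, toUnit_ofUnit]
    show γ • β ^ t γ' / β ^ t (γ * γ') * β ^ t γ / _ = _
    rw [key, div_eq_iff_eq_mul]
    congr 1
    show _ = toUnit M ((inflRep hLM).hom
      (if orderOf σ₀ ≤ t γ + t γ' then baseUnit L b else 0))
    rw [hord]
    show _ ^ (if p ≤ t γ + t γ' then 1 else 0) = _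
    split_ifs with h
    · rw [pow_one, toUnit_inflRep_baseUnit]
    · rw [pow_zero, map_zero]
      rfl

end Core

section NonNorm

variable (q : ℕ) [Fact q.Prime]

/-- A cyclic extension `L/F` of embedded local fields with nontrivial generator `σ₀` has a
nonzero cyclic class `cycClass σ₀ b`, `b ∈ Fˣ` (a non-norm; `LeafNormIndex`, `LeafCycZero`). -/
theorem exists_cycClass_ne_zero (hNI : LeafNormIndex q) (hCY3 : LeafCycZero)
    (F : Type) [Field F] [Algebra ℚ_[q] F] [Algebra F (PadicAlgCl q)]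
    [IsScalarTower ℚ_[q] F (PadicAlgCl q)] [FiniteDimensional ℚ_[q] F]
    (L : IntermediateField F (PadicAlgCl q)) [FiniteDimensional F L] [IsGalois F L]
    (σ₀ : L ≃ₐ[F] L) (hgen : ∀ g : L ≃ₐ[F] L, g ∈ Subgroup.zpowers σ₀) (hne : σ₀ ≠ 1) :
    ∃ b : Fˣ, cycClass (Rep.ofAlgebraAutOnUnits F L) σ₀ (baseUnit L b) ≠ 0 := by
  have hcyc : IsCyclic (L ≃ₐ[F] L) := ⟨σ₀, hgen⟩
  have hidx := hNI F L hcyc
  have hcard : Nat.card (L ≃ₐ[F] L) = Module.finrank F L := IsGalois.card_aut_eq_finrank F L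
  have h1 : 1 < Nat.card (L ≃ₐ[F] L) := by
    haveI : Nontrivial (L ≃ₐ[F] L) := ⟨⟨σ₀, 1, hne⟩⟩
    exact Finite.one_lt_card
  have hntop : (Units.map (Algebra.norm F : L →* F)).range ≠ ⊤ := by
    intro htop
    rw [htop, Subgroup.index_top] at hidx
    omega
  obtain ⟨b, hb⟩ : ∃ b : Fˣ, b ∉ (Units.map (Algebra.norm F : L →* F)).range := by
    by_contra hcon
    exact hntop (eq_top_iff.mpr fun x _ => by_contra fun hx => hcon ⟨x, hx⟩)
  refine ⟨b, fun h0 => hb ?_⟩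
  obtain ⟨y, hy⟩ := (hCY3 ℤ (L ≃ₐ[F] L) _ σ₀ hgen _ (baseUnit_invariant L b)).1 h0
  have h2 := congrArg (fun y => ((toUnit L y : Lˣ) : L)) hy
  simp only [toUnit_sum, toUnit_baseUnit, Units.coe_prod, toUnit_rho, Units.coe_map,
    MonoidHom.coe_coe] at h2
  rw [← Algebra.norm_eq_prod_automorphisms] at h2
  refine ⟨toUnit L y, Units.ext ?_⟩
  exact (algebraMap F L).injective h2

end NonNorm

section Main

variable (p : ℕ) [Fact p.Prime] (q : ℕ) [Fact q.Prime]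

/-- The restriction of `h|M` to `L ≤ M` is `h|L`. -/
theorem resHom_resE (E : IntermediateField ℚ_[q] (PadicAlgCl q))
    (L M : IntermediateField E (PadicAlgCl q)) [Normal E L] [Normal E M] (hLM : L ≤ M)
    (h : E.fixingSubgroup) : resHom hLM (resE E M h) = resE E L h := by
  refine AlgEquiv.ext fun x => Subtype.ext ?_
  rw [resHom_apply, resE_apply_coe, resE_apply_coe]
  rfl

/-- **(HB-ND)**: nondegeneracy of the Hilbert pairing, from (CMP), (LVL), (LV), (ZETA), (SHS)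
and the C3 leaves L4 (norm index), CY3, L6c (inflation injective), V3 (`inv` injective). -/
theorem hilbertNondeg (hCMP : LocalInvCompStatement p q) (hLVL : LocalFieldLevelsStatement q)
    (hLV : LocalLevelsStatement q) (hZ : ZetaStatement p q) (hSHS : ShapiroSurjStatement)
    (hNI : LeafNormIndex q) (hCY3 : LeafCycZero) (hInflInj : LeafInflInj q)
    (hInv : LeafInv q) : HilbertNondegStatement p q := by
  intro ζ hζ inv hinv E _ hχ B hB χ hχ0
  have hp : p.Prime := Fact.out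
  have hζE : ζ ∈ E := (hZ ζ hζ E).2 hχ
  have hζp : ζ ^ p = 1 := hζ.pow_eq_one
  have hζ0 : ζ ≠ 0 := hζ.ne_zero hp.ne_zero
  obtain ⟨α, hα0, hαE, hα⟩ := exists_kummer_root p q hLVL hζ E hζE χ
  have hχadd : ∀ a b : E.fixingSubgroup, χ.1 (a * b) = χ.1 a + χ.1 b := χ.2.1
  have hne : ∃ h : E.fixingSubgroup, χ.1 h ≠ 0 := by
    by_contra hcon
    exact hχ0 (Subtype.ext (funext fun h => by_contra fun hh => hcon ⟨h, hh⟩))
  obtain ⟨h₀, h0⟩ := exists_addChar_eq_one χ.1 hχadd hne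
  -- the cyclic field of `χ`
  have hSα : ∀ x ∈ ({α} : Set (PadicAlgCl q)), x ≠ 0 ∧ x ^ p ∈ E := by
    intro x hx
    rw [Set.mem_singleton_iff] at hx
    rw [hx]
    exact ⟨hα0, hαE⟩
  haveI hLgal : IsGalois E (IntermediateField.adjoin E ({α} : Set (PadicAlgCl q))) :=
    isGalois_kummer p q E hζ hζE {α} hSα
  haveI hLfin : FiniteDimensional E (IntermediateField.adjoin E ({α} : Set (PadicAlgCl q))) :=
    finiteDimensional_kummer q E {α}
  have hαL : α ∈ IntermediateField.adjoin E ({α} : Set (PadicAlgCl q)) :=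
    IntermediateField.subset_adjoin E {α} (Set.mem_singleton α)
  have hLfix : ∀ h : E.fixingSubgroup, (h : GalQ q) α = α →
      ∀ x ∈ IntermediateField.adjoin E ({α} : Set (PadicAlgCl q)), (h : GalQ q) x = x :=
    fun h hh x hx => fixes_adjoin q E {α} h (fun y hy => by
      rw [Set.mem_singleton_iff] at hy
      rw [hy]
      exact hh) hx
  have hord := orderOf_resE p q E hζ χ.1 hχadd hα0 hα _ hαL hLfix h0
  have hgen := mem_zpowers_resE p q E hζ χ.1 hχadd hα0 hα _ hαL hLfix h0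
  have hidx := cycIdx_resE p q E hζ χ.1 hχadd hα0 hα _ hαL hLfix h0
  -- a non-norm `b`
  obtain ⟨b, hb⟩ := exists_cycClass_ne_zero q hNI hCY3 E
    (IntermediateField.adjoin E ({α} : Set (PadicAlgCl q))) _ hgen (fun h1 => by
      rw [h1, orderOf_one] at hord
      exact hp.one_lt.ne hord)
  -- its `p`-th root and Kummer character
  obtain ⟨β, hβ⟩ := IsAlgClosed.exists_pow_nat_eq (((b : E) : PadicAlgCl q)) hp.pos
  have hb0 : ((b : E) : PadicAlgCl q) ≠ 0 := fun h => b.ne_zero (Subtype.ext h)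
  have hβ0 : β ≠ 0 := by
    rintro rfl
    rw [zero_pow hp.ne_zero] at hβ
    exact hb0 hβ.symm
  have hβE : β ^ p ∈ E := by
    rw [hβ]
    exact (b : E).2
  obtain ⟨ψ, hψ⟩ := exists_kummer_char p q hLVL hζ E hζE hβ0 hβE
  -- the field `M = E(α, β)`
  have hSαβ : ∀ x ∈ ({α, β} : Set (PadicAlgCl q)), x ≠ 0 ∧ x ^ p ∈ E := by
    intro x hx
    rcases hx with hx | hx
    · rw [hx]
      exact ⟨hα0, hαE⟩
    · rw [Set.mem_singleton_iff] at hx
      rw [hx]
      exact ⟨hβ0, hβE⟩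
  haveI hMgal : IsGalois E (IntermediateField.adjoin E ({α, β} : Set (PadicAlgCl q))) :=
    isGalois_kummer p q E hζ hζE {α, β} hSαβ
  haveI hMfin : FiniteDimensional E
      (IntermediateField.adjoin E ({α, β} : Set (PadicAlgCl q))) :=
    finiteDimensional_kummer q E {α, β}
  have hLM : IntermediateField.adjoin E ({α} : Set (PadicAlgCl q)) ≤
      IntermediateField.adjoin E ({α, β} : Set (PadicAlgCl q)) :=
    IntermediateField.adjoin.mono E _ _ (by
      intro x hx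
      exact Or.inl hx)
  have hζM : ζ ∈ IntermediateField.adjoin E ({α, β} : Set (PadicAlgCl q)) :=
    (IntermediateField.adjoin E ({α, β} : Set (PadicAlgCl q))).algebraMap_mem ⟨ζ, hζE⟩
  have hβM : β ∈ IntermediateField.adjoin E ({α, β} : Set (PadicAlgCl q)) :=
    IntermediateField.subset_adjoin E {α, β} (Or.inr (Set.mem_singleton β))
  obtain ⟨ζ', hζ'⟩ : ∃ ζ' : (IntermediateField.adjoin E ({α, β} : Set (PadicAlgCl q)))ˣ,
      ((ζ' : IntermediateField.adjoin E ({α, β} : Set (PadicAlgCl q))) : PadicAlgCl q) = ζ :=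
    ⟨Units.mk0 ⟨ζ, hζM⟩ (fun h => hζ0 (congrArg Subtype.val h)), rfl⟩
  obtain ⟨β', hβ'⟩ : ∃ β' : (IntermediateField.adjoin E ({α, β} : Set (PadicAlgCl q)))ˣ,
      ((β' : IntermediateField.adjoin E ({α, β} : Set (PadicAlgCl q))) : PadicAlgCl q) = β :=
    ⟨Units.mk0 ⟨β, hβM⟩ (fun h => hβ0 (congrArg Subtype.val h)), rfl⟩
  have hζ'p : ζ' ^ p = 1 := by
    refine Units.ext (Subtype.ext ?_)
    show ((ζ' : IntermediateField.adjoin E ({α, β} : Set (PadicAlgCl q))) : PadicAlgCl q) ^ p = 1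
    rw [hζ', hζp]
  have hβ'p : β' ^ p = Units.map (algebraMap E (IntermediateField.adjoin E
      ({α, β} : Set (PadicAlgCl q))) : E →* _) b := by
    refine Units.ext (Subtype.ext ?_)
    show ((β' : IntermediateField.adjoin E ({α, β} : Set (PadicAlgCl q))) : PadicAlgCl q) ^ p =
      ((b : E) : PadicAlgCl q)
    rw [hβ', hβ]
  -- the exponent `k`
  have hkex : ∀ h : E.fixingSubgroup,
      resE E (IntermediateField.adjoin E ({α, β} : Set (PadicAlgCl q))) h • β' =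
        ζ' ^ (ψ.1 h).val * β' := by
    intro h
    refine Units.ext (Subtype.ext ?_)
    show ((resE E (IntermediateField.adjoin E ({α, β} : Set (PadicAlgCl q))) h
        (β' : IntermediateField.adjoin E ({α, β} : Set (PadicAlgCl q))) :
        IntermediateField.adjoin E ({α, β} : Set (PadicAlgCl q))) : PadicAlgCl q) =
      ((ζ' : IntermediateField.adjoin E ({α, β} : Set (PadicAlgCl q))) : PadicAlgCl q) ^
        (ψ.1 h).val * ((β' : IntermediateField.adjoin E ({α, β} : Set (PadicAlgCl q))) :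
          PadicAlgCl q)
    rw [resE_apply_coe, hζ', hβ']
    exact hψ h
  have hsurj := resE_surjective E (IntermediateField.adjoin E ({α, β} : Set (PadicAlgCl q)))
  have hk : ∀ γ : (IntermediateField.adjoin E ({α, β} : Set (PadicAlgCl q))) ≃ₐ[E]
      (IntermediateField.adjoin E ({α, β} : Set (PadicAlgCl q))),
      ∃ n : ℕ, γ • β' = ζ' ^ n * β' := by
    intro γ
    obtain ⟨h, rfl⟩ := hsurj γ
    exact ⟨_, hkex h⟩
  choose k hk using hk
  have hkψ : ∀ h : E.fixingSubgroup,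
      ζ' ^ k (resE E (IntermediateField.adjoin E ({α, β} : Set (PadicAlgCl q))) h) =
        ζ' ^ (ψ.1 h).val := fun h => mul_right_cancel ((hk _).symm.trans (hkex h))
  obtain ⟨c, hc1, hc2⟩ := exists_kummer_cocycle p hp.pos hLM _ hord hgen b β' ζ' hβ'p k hk
  -- Shapiro
  obtain ⟨F, hF, -, hFle⟩ := hLVL.2.1 E inferInstance
  have hfi : (E.fixingSubgroup).FiniteIndex := by
    have := hLV.2 F hF
    exact Subgroup.finiteIndex_of_le hFle
  have hψadd : ∀ a b : E.fixingSubgroup, ψ.1 (a * b) = ψ.1 a + ψ.1 b := ψ.2.1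
  have hf1 : IsLevelFun₂ (Dloc q) E.fixingSubgroup
      (fun x : E.fixingSubgroup × E.fixingSubgroup => ψ.1 x.1 * χ.1 x.2) := by
    obtain ⟨F₁, hF₁, hψF⟩ := ψ.2.2
    obtain ⟨F₂, hF₂, hχF⟩ := χ.2.2
    refine ⟨F₁ ⊔ F₂, (Dloc q).sup hF₁ hF₂, fun h₁ h₂ n₁ n₂ hn₁ hn₂ => ?_⟩
    show ψ.1 (h₁ * n₁) * χ.1 (h₂ * n₂) = ψ.1 h₁ * χ.1 h₂
    rw [hψF h₁ n₁ ((Dloc q).sub_antitone le_sup_left hn₁),
      hχF h₂ n₂ ((Dloc q).sub_antitone le_sup_right hn₂)]
  obtain ⟨z, hz⟩ := hSHS (GalQ q) (ZMod p) (Dloc q) hLV.1 E.fixingSubgroup F hF hFle hfi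
    (fun x : E.fixingSubgroup × E.fixingSubgroup => ψ.1 x.1 * χ.1 x.2) hf1 (by
      intro h₁ h₂ h₃
      show ψ.1 h₂ * χ.1 h₃ - ψ.1 (h₁ * h₂) * χ.1 h₃ + ψ.1 h₁ * χ.1 (h₂ * h₃) -
        ψ.1 h₁ * χ.1 h₂ = 0
      rw [hψadd, hχadd]
      ring)
  have hBz := hB ψ χ z hz
  have hreal : Realises p q E (IntermediateField.adjoin E ({α, β} : Set (PadicAlgCl q))) ζ'
      (shapiroRes (Dloc q) E.fixingSubgroup z) c := by
    intro h₁ h₂
    rw [hz h₁ h₂, hc2, resHom_resE q E _ _ hLM h₂, hidx h₂]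
    show ofUnit _ _ = ofUnit _ (ζ' ^ (ψ.1 h₁ * χ.1 h₂).val)
    congr 1
    rw [pow_mul, hkψ h₁, ← pow_mul, ZMod.val_mul]
    exact pow_eq_pow_mod _ hζ'p
  have hcorr : CorrE p q E (IntermediateField.adjoin E ({α, β} : Set (PadicAlgCl q))) ζ'
      ((cls (lcComplex (Dloc q) (permRep (ZMod p) E.fixingSubgroup)) 2).hom z)
      (groupCohomology.H2π (Rep.ofAlgebraAutOnUnits E
        (IntermediateField.adjoin E ({α, β} : Set (PadicAlgCl q)))) c) :=
    ⟨z, c, rfl, rfl, hreal⟩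
  have h1 := hCMP ζ hζ inv hinv E hχ _ ζ' hζ' _ _ hcorr
  refine ⟨ψ, fun hB0 => ?_⟩
  rw [hBz] at hB0
  rw [hB0, qzOfZMod_zero, hc1, map_neg, eq_comm, neg_eq_zero] at h1
  have h3 := (hInv E (IntermediateField.adjoin E ({α, β} : Set (PadicAlgCl q)))).2.1
    (h1.trans (map_zero _).symm)
  exact hb (hInflInj E _ _ hLM (h3.trans (map_zero _).symm))

end Main

end Fermat.Agent.S55.H41

end
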