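/-
S55 / Program C, package C4 (helper26), leaf (HB-ND) — final form (helper41): nondegeneracy of
the Hilbert pairing of `E ∋ ζ` from the single remaining leaf (CMP), all other inputs
((LVL), (LV), (ZETA), (SHS) and the C3 leaves) being theorems.
-/
import Fermat.Agent.S55.H41.HilbertNondeg
import Fermat.Agent.S55.H66.C3Main
import Fermat.Agent.S55.H40.LocalLevels
import Fermat.Agent.S55.H63.LocalLevels
import Fermat.Agent.S55.H51.Zeta
import Fermat.Agent.S55.H55.ShapiroLevel

set_option autoImplicit false

namespace Fermat.Agent.S55.H41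

/-- **(HB-ND)** from (CMP) alone. -/
theorem hilbertNondeg_of_cmp (p : ℕ) [Fact p.Prime] (q : ℕ) [Fact q.Prime]
    (hCMP : H26.LocalInvCompStatement p q) : H26.HilbertNondegStatement p q :=
  hilbertNondeg p q hCMP (H63.localFieldLevelsStatement q) (H40.localLevelsStatement q)
    (H51.zetaStatement p q) H55.Shapiro.shapiroSurj (H66.c3_normIndex q) H37.leafCycZero
    (H66.c3_inflInj q) (H66.c3_inv q)

end Fermat.Agent.S55.H41
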