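/-
S55 / Program C, package C4 (helper26), leaf (HB-ND) — UNCONDITIONAL (helper41): nondegeneracy
of the Hilbert pairing of `E ∋ ζ`, with (CMP) discharged by `H26.localInvComp_holds`.
-/
import Fermat.Agent.S55.H41.HilbertNondegMain
import Fermat.Agent.S55.H26.LocalMain

set_option autoImplicit false

namespace Fermat.Agent.S55.H41

/-- **(HB-ND)**, unconditional: `H26.HilbertNondegStatement p q`. -/
theorem hilbertNondeg_holds (p : ℕ) [Fact p.Prime] (q : ℕ) [Fact q.Prime] :
    H26.HilbertNondegStatement p q :=
  hilbertNondeg_of_cmp p q (H26.localInvComp_holds p q)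

end Fermat.Agent.S55.H41
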